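import Fermat.Agent.BirchTwists.Gauss
import Mathlib.Analysis.Analytic.IsolatedZeros
import Mathlib.Analysis.Complex.CauchyIntegral

/-!
# `∑ 1 / (℘ ^ 2 + 1)` over the points of `p`-torsion, `p ≡ 3 (mod 4)`

The distribution relation reduces the sum of the second differences at the quarter period over the
`p`-torsion to that over the `2`-torsion, first for `3/2 < re s`, then at `s = 1`.
-/

set_option autoImplicit false

noncomputable section

open Complex (I)
open FA.CoatesWiles (kern diffSum)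
open scoped Topology

namespace FA.BirchTwists

variable {L : PeriodPair} {Ω : ℂ}

/-- `1 / (℘ ^ 2 + 1)` at a point of torsion. -/
def weight (L : PeriodPair) (Ω : ℂ) {n : ℕ} (y : ZMod n × ZMod n) : ℂ :=
  (L.weierstrassP (tors Ω y) ^ 2 + 1)⁻¹

theorem tors_zero (Ω : ℂ) {n : ℕ} [NeZero n] : tors Ω (0 : ZMod n × ZMod n) = 0 := by
  simp [tors, lift', gi]

theorem diffSum_zero (x s : ℂ) : diffSum L x 0 s = 0 := by
  simp [diffSum, FA.CoatesWiles.diff2, two_mul]

theorem diffSum_alpha_tors (h : IsSquareLattice L Ω) {n : ℕ} [NeZero n] (hn : ¬ 4 ∣ n)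
    {y : ZMod n × ZMod n} (hy : y ≠ 0) :
    diffSum L (alpha Ω) (tors Ω y) 1 = L.derivWeierstrassP (alpha Ω) /
      (L.weierstrassP (alpha Ω) - L.weierstrassP (tors Ω y)) :=
  FA.CoatesWiles.diffSum_one L (alpha_notMem h) (tors_notMem h hy) (alpha_add_tors_notMem h hn y)
    (alpha_sub_tors_notMem h hn y)

variable (h2 : L.g₂ = 4) (h3 : L.g₃ = 0) (h : IsSquareLattice L Ω)

include h3 h

/-- The action of `i`. -/
theorem wp_tors_rot {n : ℕ} [NeZero n] (y : ZMod n × ZMod n) :
    L.weierstrassP (tors Ω (-y.2, y.1)) = -L.weierstrassP (tors Ω y) := by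
  have e := tors_sub_mem h (n := n) (-(lift' y).2, (lift' y).1)
  have e2 : (((-(lift' y).2 : ℤ) : ZMod n), (((lift' y).1 : ℤ) : ZMod n)) = (-y.2, y.1) := by
    simp [lift']
  simp only at e
  rw [e2, ← I_mul_gi] at e
  rw [← wp_I_mul h3, eq_comm]
  refine weierstrassP_of_sub_mem ?_
  convert e using 2
  rw [tors]
  ring

theorem wp_alpha_ne {n : ℕ} [NeZero n] (hn : ¬ 4 ∣ n) {y : ZMod n × ZMod n} (hy : y ≠ 0) :
    L.weierstrassP (alpha Ω) ≠ L.weierstrassP (tors Ω y) ∧
      L.weierstrassP (alpha Ω) ≠ -L.weierstrassP (tors Ω y) := by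
  have key : ∀ {z : ZMod n × ZMod n}, z ≠ 0 →
      L.weierstrassP (alpha Ω) ≠ L.weierstrassP (tors Ω z) := fun {z} hz =>
    FA.CoatesWiles.wp_ne_wp L (alpha_notMem h) (tors_notMem h hz) (alpha_add_tors_notMem h hn z)
      (alpha_sub_tors_notMem h hn z)
  refine ⟨key hy, ?_⟩
  rw [← wp_tors_rot h3 h]
  exact key fun e => hy (Prod.ext (congrArg Prod.snd e) (neg_eq_zero.1 (congrArg Prod.fst e)))

include h2

theorem wp_sq_add_one_ne_zero {n : ℕ} [NeZero n] (hn : ¬ 4 ∣ n) {y : ZMod n × ZMod n}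
    (hy : y ≠ 0) : L.weierstrassP (tors Ω y) ^ 2 + 1 ≠ 0 := by
  obtain ⟨a, b⟩ := wp_alpha_ne h3 h hn hy
  obtain ⟨hX, -⟩ := wp_alpha h2 h3 h
  intro e
  rcases mul_eq_zero.1 (show (L.weierstrassP (alpha Ω) - L.weierstrassP (tors Ω y)) *
    (L.weierstrassP (alpha Ω) + L.weierstrassP (tors Ω y)) = 0 by
      linear_combination hX - e) with e' | e'
  · exact a (sub_eq_zero.1 e')
  · exact b (eq_neg_of_add_eq_zero_left e')

/-- **The value at `s = 1` of a sum invariant under `i`.** -/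
theorem sum_mul_diffSum {n : ℕ} [NeZero n] (hn : ¬ 4 ∣ n) (f : ZMod n × ZMod n → ℂ) (hf0 : f 0 = 0)
    (hf : ∀ y, f (-y.2, y.1) = f y) :
    ∑ y, f y * diffSum L (alpha Ω) (tors Ω y) 1 =
      -L.weierstrassP (alpha Ω) * L.derivWeierstrassP (alpha Ω) *
        ∑ y, f y * weight L Ω y := by
  set X := L.weierstrassP (alpha Ω)
  set D := L.derivWeierstrassP (alpha Ω)
  obtain ⟨hX, -⟩ := wp_alpha h2 h3 h
  let rot : ZMod n × ZMod n ≃ ZMod n × ZMod n :=
    { toFun := fun y => (-y.2, y.1)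
      invFun := fun y => (y.2, -y.1)
      left_inv := fun y => by simp
      right_inv := fun y => by simp }
  have e := rot.sum_comp fun y => f y * diffSum L (alpha Ω) (tors Ω y) 1
  have e2 : ∑ y, (f (rot y) * diffSum L (alpha Ω) (tors Ω (rot y)) 1 +
      f y * diffSum L (alpha Ω) (tors Ω y) 1) = ∑ y, 2 * (-X * D * (f y * weight L Ω y)) := by
    refine Finset.sum_congr rfl fun y _ => ?_
    rcases eq_or_ne y 0 with rfl | hy
    · have : rot 0 = 0 := by simp [rot]
      simp [this, hf0]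
    have hy' : rot y ≠ 0 := fun e => hy (rot.injective (e.trans (by
      simp [rot, Prod.ext_iff])))
    obtain ⟨ha, hb⟩ := wp_alpha_ne h3 h hn hy
    rw [diffSum_alpha_tors h hn hy, diffSum_alpha_tors h hn hy', weight]
    simp only [rot, Equiv.coe_fn_mk, hf, wp_tors_rot h3 h]
    have hW := wp_sq_add_one_ne_zero h2 h3 h hn hy
    have ha' := sub_ne_zero.2 ha
    have hb' := sub_ne_zero.2 hb
    field_simp
    linear_combination (2 * f y * X * D) * hX
  rw [Finset.sum_add_distrib, e, ← Finset.mul_sum, ← Finset.mul_sum] at e2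
  linear_combination (1 / 2 : ℂ) * e2

omit h2 h3 in
/-- The relation between the `n`-torsion and the `2`-torsion. -/
theorem sum_diffSum_eq {p : ℕ} [NeZero p] (hp : p % 4 = 3) {s : ℂ} (hs : 1 / 2 < s.re) :
    ∑ y : ZMod p × ZMod p, diffSum L (alpha Ω) (tors Ω y) s =
      (kern s (1 / p) + (p : ℂ) ^ 2) / 4 *
        ∑ y : ZMod 2 × ZMod 2, diffSum L (alpha Ω) (tors Ω y) s := by
  set G : ℂ → ℂ := fun s => ∑ y : ZMod p × ZMod p, diffSum L (alpha Ω) (tors Ω y) s -
    (kern s (1 / p) + (p : ℂ) ^ 2) / 4 *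
      ∑ y : ZMod 2 × ZMod 2, diffSum L (alpha Ω) (tors Ω y) s with hG
  set U : Set ℂ := {z | 1 / 2 < z.re}
  have hU : IsOpen U := isOpen_lt continuous_const Complex.continuous_re
  have hd : DifferentiableOn ℂ G U := by
    have hs := fun (m : ℕ) (y : ZMod m × ZMod m) =>
      FA.CoatesWiles.differentiableOn_diffSum L (alpha_notMem h) (tors Ω y)
    exact (DifferentiableOn.fun_sum fun y _ => hs p y).sub
      (((((FA.CoatesWiles.differentiable_kern _).differentiableOn).add_const _).div_const _).mul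
        (DifferentiableOn.fun_sum fun y _ => hs 2 y))
  have hzero : ∀ z : ℂ, 3 / 2 < z.re → G z = 0 := fun z hz => by
    have hp1 : latSum L ((p : ℕ) * alpha Ω) z = -latSum L (alpha Ω) z := by
      have hm : (p + 1 : ℂ) * alpha Ω ∈ L.lattice := by
        obtain ⟨k, hk⟩ : ∃ k, p + 1 = 4 * k := ⟨(p + 1) / 4, by omega⟩
        have hk' : (p : ℂ) + 1 = 4 * (k : ℂ) := by exact_mod_cast hk
        convert h.mem (-(k : ℤ), (k : ℤ)) using 1
        rw [hk', alpha]
        simp [gi]
        ring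
      rw [← latSum_neg, ← latSum_add L (-alpha Ω) z hm]
      congr 1
      ring
    have hp2 : latSum L ((2 : ℕ) * alpha Ω) z = 0 := by
      have e := latSum_add L (-((2 : ℕ) * alpha Ω)) z (h.mem (-1, 1))
      rw [latSum_neg, show -((2 : ℕ) * alpha Ω) + Ω * gi (-1, 1) = (2 : ℕ) * alpha Ω by
        rw [alpha]; push_cast; ring] at e
      linear_combination (1 / 2 : ℂ) * e
    simp only [hG, sum_diffSum_tors h p hz, sum_diffSum_tors h 2 hz, hp1, hp2]
    push_cast
    ring
  have hev : G =ᶠ[𝓝 (2 : ℂ)] 0 := Filter.eventuallyEq_of_mem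
    ((isOpen_lt continuous_const Complex.continuous_re).mem_nhds (by norm_num :
      (3 / 2 : ℝ) < (2 : ℂ).re)) hzero
  have := (hd.analyticOnNhd hU).eqOn_zero_of_preconnected_of_eventuallyEq_zero
    (convex_halfSpace_re_gt _).isPreconnected (show (2 : ℂ) ∈ U by norm_num [U]) hev hs
  exact sub_eq_zero.1 this

/-- **The unweighted sum.** -/
theorem sum_weight {p : ℕ} [NeZero p] (hp : p % 4 = 3) :
    ∑ y : ZMod p × ZMod p, (if y = 0 then 0 else weight L Ω y) = (p : ℂ) * (p + 1) / 2 := by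
  obtain ⟨hX, hD⟩ := wp_alpha h2 h3 h
  set X := L.weierstrassP (alpha Ω)
  set D := L.derivWeierstrassP (alpha Ω)
  have e2 : ∑ y : ZMod 2 × ZMod 2, diffSum L (alpha Ω) (tors Ω y) 1 = -2 * X * D := by
    obtain ⟨h11, h10, h01⟩ := wp_half h2 h3 h
    have hu : (Finset.univ : Finset (ZMod 2 × ZMod 2)) = {0, (1, 1), (1, 0), (0, 1)} := by decide
    have h4 : ¬ 4 ∣ 2 := by norm_num
    rw [hu, Finset.sum_insert (by decide), Finset.sum_insert (by decide),
      Finset.sum_insert (by decide), Finset.sum_singleton, tors_zero, diffSum_zero,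
      diffSum_alpha_tors h h4 (by decide), diffSum_alpha_tors h h4 (by decide),
      diffSum_alpha_tors h h4 (by decide), h11, h01]
    obtain ⟨ha, hb⟩ := wp_alpha_ne h3 h h4 (show ((1, 0) : ZMod 2 × ZMod 2) ≠ 0 by decide)
    set a := L.weierstrassP (tors Ω ((1, 0) : ZMod 2 × ZMod 2))
    have hX0 : X ≠ 0 := fun e => by simp [e] at hX
    have ha' := sub_ne_zero.2 ha
    have hb' := sub_ne_zero.2 hb
    have t0 : D / (X - 0) = -X * D := by
      rw [sub_zero, div_eq_iff hX0]; linear_combination D * hX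
    have t1 : D / (X - a) + D / (X - -a) = -X * D := by
      rw [div_add_div _ _ ha' hb', div_eq_iff (mul_ne_zero ha' hb')]
      linear_combination X * D * hX - X * D * h10
    rw [t0, t1]
    ring
  have e := sum_mul_diffSum h2 h3 h (n := p) (by omega) (fun y => if y = 0 then 0 else 1)
    (if_pos rfl) fun y => by
      have : (-y.2, y.1) = (0 : ZMod p × ZMod p) ↔ y = 0 := by
        simp [Prod.ext_iff, and_comm]
      simp only [this]
  have e3 : ∑ y : ZMod p × ZMod p, (if y = 0 then (0 : ℂ) else 1) *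
      diffSum L (alpha Ω) (tors Ω y) 1 = ∑ y : ZMod p × ZMod p, diffSum L (alpha Ω) (tors Ω y) 1 :=
    Finset.sum_congr rfl fun y _ => by
      split_ifs with hy
      · rw [hy, tors_zero, diffSum_zero, zero_mul]
      · rw [one_mul]
  rw [e3, sum_diffSum_eq h hp (by norm_num), e2, FA.CoatesWiles.kern_one, one_div, inv_inv] at e
  simp only [ite_mul, zero_mul, one_mul] at e
  refine mul_left_cancel₀ (mul_ne_zero (neg_ne_zero.2 fun e' => ?_) hD : -X * D ≠ 0) ?_
  · simp [e'] at hX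
  · rw [← e]; ring

end FA.BirchTwists

end
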