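import Fermat.Agent.Tau.TorsionIntegral
import Fermat.Agent.CMWeber.Lattice
import Fermat.Agent.DeuringCM.AllFields

/-!
# The abscissae of odd torsion on `y² = x³ - x` at a place over `2`

Doubling permutes the points of odd prime order. It sends an abscissa with `|x| > 1` or
`|x - i| = 1` to one with larger absolute value and one with `|x - i| ^ 4 < |2| ^ 3` to one with
`|x - i| = 1`. So `|2| ^ 3 ≤ |x ^ 2 + 1| ^ 2`.
-/

set_option autoImplicit false

noncomputable section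

open Complex (I)

namespace FA.BirchTwists

variable {Γ : Type*} [LinearOrderedCommGroupWithZero Γ] {v : Valuation ℂ Γ} {L : PeriodPair}

theorem map_I (v : Valuation ℂ Γ) : v I = 1 :=
  (pow_eq_one_iff_of_nonneg zero_le (by norm_num : (4 : ℕ) ≠ 0)).1 (by
    rw [← map_pow, Complex.I_pow_four, map_one])

theorem map_two_I (v : Valuation ℂ Γ) : v (2 * I) = v 2 := by rw [map_mul, map_I, mul_one]

theorem map_four (v : Valuation ℂ Γ) : v (4 : ℂ) = v 2 ^ 2 := by
  rw [← map_pow]; norm_num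

theorem map_eight (v : Valuation ℂ Γ) : v (8 : ℂ) = v 2 ^ 3 := by
  rw [← map_pow]; norm_num

theorem map_two_pos (v : Valuation ℂ Γ) : 0 < v (2 : ℂ) :=
  zero_lt_iff.2 ((Valuation.ne_zero_iff v).2 two_ne_zero)

/-- The abscissa of the double. -/
theorem wp_double (h2 : L.g₂ = 4) (h3 : L.g₃ = 0) {x : ℂ} (hx : x ∉ L.lattice)
    (h2x : x + x ∉ L.lattice) :
    L.derivWeierstrassP x ≠ 0 ∧ L.weierstrassP x ^ 3 - L.weierstrassP x ≠ 0 ∧
      L.weierstrassP (x + x) = (L.weierstrassP x ^ 2 + 1) ^ 2 /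
        (4 * (L.weierstrassP x ^ 3 - L.weierstrassP x)) := by
  set X := L.weierstrassP x with hX
  have hq : L.derivWeierstrassP x ^ 2 = 4 * (X ^ 3 - X) := by
    rw [L.derivWeierstrassP_sq x hx, h2, h3, ← hX]; ring
  have hq0 : L.derivWeierstrassP x ≠ 0 := fun h => h2x (by
    have := FA.Mazur.Weier.sub_mem_of_eq L hx (fun e => hx (by simpa using neg_mem e))
      (L.weierstrassP_neg x).symm (by rw [L.derivWeierstrassP_neg, h, neg_zero])
    rw [show x + x = -(-x - x) by ring]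
    exact neg_mem this)
  have hcub0 : X ^ 3 - X ≠ 0 := fun e => hq0 (by
    rw [e, mul_zero] at hq
    exact pow_eq_zero_iff two_ne_zero |>.1 hq)
  refine ⟨hq0, hcub0, ?_⟩
  have h4 : 4 * (X ^ 3 - X) ≠ 0 := mul_ne_zero (by norm_num : (4 : ℂ) ≠ 0) hcub0
  have h16 : 4 * (X ^ 3 - X) * 4 ≠ 0 := mul_ne_zero h4 (by norm_num : (4 : ℂ) ≠ 0)
  rw [FA.Mazur.Weier.weierstrassP_double L hx hq0, ← hX, h2, div_pow, hq, div_div,
    div_sub' h16, div_eq_div_iff h16 h4]
  ring

variable (h2 : L.g₂ = 4) (h3 : L.g₃ = 0) (hv : v (2 : ℂ) < 1) {l : ℕ}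

include h2 h3 hv

/-- The abscissa is integral. -/
theorem wp_le_one (hl : l.Prime) (hl2 : l ≠ 2) {w : ℂ} (hw : w ∉ L.lattice)
    (hlw : (l : ℂ) * w ∈ L.lattice) : v (L.weierstrassP w) ≤ 1 := by
  refine FA.Hatada.integral_of_growth L Nat.prime_two hl hl2 (fun x hx hlx h1 => ?_) hw hlw
  have h2x := FA.Hatada.two_mul_notMem (hl.odd_of_ne_two hl2) hx hlx
  obtain ⟨-, hcub0, hd⟩ := wp_double h2 h3 hx h2x
  rw [show ((2 : ℕ) : ℂ) * x = x + x by push_cast; ring, hd]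
  set X := L.weierstrassP x
  have hX0 : 0 < v X := zero_lt_one.trans h1
  have hcub : v (X ^ 3 - X) = v X ^ 3 := by
    rw [v.map_sub_eq_of_lt_left, map_pow]
    rw [map_pow]
    exact lt_self_pow₀ h1 (by norm_num)
  have hnum : v ((X ^ 2 + 1) ^ 2) = v X ^ 3 * v X := by
    rw [map_pow, v.map_add_eq_of_lt_left, map_pow, ← pow_mul, ← pow_succ]
    rw [map_one, map_pow]
    exact one_lt_pow₀ h1 two_ne_zero
  rw [map_div₀, hnum, map_mul, map_four, hcub,
    lt_div_iff₀ (mul_pos (pow_pos (map_two_pos v) 2) (pow_pos hX0 3)),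
    show v X * (v 2 ^ 2 * v X ^ 3) = v 2 ^ 2 * (v X ^ 3 * v X) by ac_rfl]
  exact mul_lt_of_lt_one_left (mul_pos (pow_pos hX0 3) hX0) (pow_lt_one₀ zero_le hv two_ne_zero)

/-- It is congruent to `i`. -/
theorem wp_sub_I_lt_one (hl : l.Prime) (hl2 : l ≠ 2) {w : ℂ} (hw : w ∉ L.lattice)
    (hlw : (l : ℂ) * w ∈ L.lattice) : v (L.weierstrassP w - I) < 1 := by
  have hX := wp_le_one h2 h3 hv hl hl2 hw hlw
  have h2w := FA.Hatada.two_mul_notMem (hl.odd_of_ne_two hl2) hw hlw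
  obtain ⟨-, hcub0, hd⟩ := wp_double h2 h3 hw h2w
  have hl2w : (l : ℂ) * (w + w) ∈ L.lattice := by rw [mul_add]; exact add_mem hlw hlw
  have hX' := wp_le_one h2 h3 hv hl hl2 h2w hl2w
  set X := L.weierstrassP w
  refine lt_of_le_of_ne (v.map_sub_le hX (map_I v).le) fun h1 => not_lt.2 hX' ?_
  have hnum : v ((X ^ 2 + 1) ^ 2) = 1 := by
    rw [show X ^ 2 + 1 = (X - I) * ((X - I) + 2 * I) by linear_combination Complex.I_sq,
      map_pow, map_mul, h1, one_mul, v.map_add_eq_of_lt_left (by rwa [h1, map_two_I]), h1, one_pow]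
  have hden : v (4 * (X ^ 3 - X)) < 1 := by
    rw [map_mul, map_four]
    refine mul_lt_one_of_nonneg_of_lt_one_left zero_le (pow_lt_one₀ zero_le hv two_ne_zero) ?_
    refine v.map_sub_le ?_ hX
    rw [map_pow]
    exact pow_le_one' hX 3
  have hden0 : 0 < v (4 * (X ^ 3 - X)) :=
    zero_lt_iff.2 ((Valuation.ne_zero_iff v).2 (mul_ne_zero (by norm_num) hcub0))
  rw [hd, map_div₀, hnum, lt_div_iff₀ hden0, one_mul]
  exact hden

/-- It is not closer to `i` than `2 ^ (3/4)`. -/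
theorem two_le_wp_sub_I (hl : l.Prime) (hl2 : l ≠ 2) {w : ℂ} (hw : w ∉ L.lattice)
    (hlw : (l : ℂ) * w ∈ L.lattice) : v 2 ^ 3 ≤ v (L.weierstrassP w - I) ^ 4 := by
  have hU := wp_sub_I_lt_one h2 h3 hv hl hl2 hw hlw
  have h2w := FA.Hatada.two_mul_notMem (hl.odd_of_ne_two hl2) hw hlw
  obtain ⟨-, hcub0, hd⟩ := wp_double h2 h3 hw h2w
  have hl2w : (l : ℂ) * (w + w) ∈ L.lattice := by rw [mul_add]; exact add_mem hlw hlw
  have hU' := wp_sub_I_lt_one h2 h3 hv hl hl2 h2w hl2w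
  set X := L.weierstrassP w
  by_contra! hlt
  refine hU'.ne ?_
  have hX : v X = 1 := by
    have h := v.map_add_eq_of_lt_left (x := I) (y := X - I) (by rwa [map_I])
    rwa [add_sub_cancel, map_I] at h
  have hsq : ∀ e : ℂ, v (I + e) ^ 2 = v 2 → v (X + e) = v (I + e) := fun e he => by
    rw [show X + e = (I + e) + (X - I) by ring]
    refine v.map_add_eq_of_lt_left (lt_of_pow_lt_pow_left₀ 4 zero_le (hlt.trans_le ?_))
    rw [show v (I + e) ^ 4 = (v (I + e) ^ 2) ^ 2 by rw [← pow_mul], he]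
    exact pow_le_pow_right_of_le_one' hv.le (by norm_num)
  have e1 : v (I + 1) ^ 2 = v 2 := by
    rw [← map_pow, ← map_two_I v]
    congr 1
    linear_combination Complex.I_sq
  have e2 : v (I + -1) ^ 2 = v 2 := by
    rw [← map_pow, ← map_two_I v, ← v.map_neg (2 * I)]
    congr 1
    linear_combination Complex.I_sq
  have hcub : v (X ^ 3 - X) = v 2 := by
    rw [show X ^ 3 - X = X * ((X + -1) * (X + 1)) by ring, map_mul, map_mul, hX, one_mul,
      hsq _ e1, hsq _ e2, ← map_mul,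
      show (I + -1) * (I + 1) = -2 by linear_combination Complex.I_sq, v.map_neg]
  have hnum : v ((X - I) ^ 4 + 8 * X ^ 2) = v 2 ^ 3 := by
    have e : v (8 * X ^ 2) = v 2 ^ 3 := by rw [map_mul, map_pow, hX, map_eight, one_pow, mul_one]
    rw [v.map_add_eq_of_lt_right, e]
    rwa [map_pow, e]
  have hid : (X ^ 2 + 1) ^ 2 / (4 * (X ^ 3 - X)) - I =
      ((X - I) ^ 4 + 8 * X ^ 2) / (4 * (X ^ 3 - X)) := by
    rw [div_sub' (mul_ne_zero (by norm_num) hcub0)]
    congr 1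
    linear_combination (-6 * X ^ 2 + 4 * X * I - I ^ 2 + 1) * Complex.I_sq
  rw [hd, hid, map_div₀, hnum, map_mul, map_four, hcub, ← pow_succ,
    div_self (pow_ne_zero _ (map_two_pos v).ne')]

omit h2 hv in
/-- `℘` at `i z`. -/
theorem wp_I_mul (z : ℂ) : L.weierstrassP (I * z) = -L.weierstrassP z := by
  have hs : FA.Singular.Stable L I := fun x hx => FA.DeuringCM.I_mul_mem_lattice L h3 hx
  have hs' : FA.Singular.Stable L I⁻¹ := fun x hx => by
    rw [Complex.inv_I, neg_mul]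
    exact neg_mem (hs x hx)
  rw [FA.CMWeber.weierstrassP_unit_mul Complex.I_ne_zero hs hs', inv_pow, Complex.I_sq]
  ring

/-- **The bound.** -/
theorem two_le_wp_sq_add_one (hl : l.Prime) (hl2 : l ≠ 2) {w : ℂ} (hw : w ∉ L.lattice)
    (hlw : (l : ℂ) * w ∈ L.lattice) : v 2 ^ 3 ≤ v (L.weierstrassP w ^ 2 + 1) ^ 2 := by
  have hw' : I * w ∉ L.lattice := fun h => hw (by
    have := neg_mem (FA.DeuringCM.I_mul_mem_lattice L h3 h)
    rwa [← mul_assoc, Complex.I_mul_I, neg_one_mul, neg_neg] at this)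
  have hlw' : (l : ℂ) * (I * w) ∈ L.lattice := by
    rw [mul_left_comm]; exact FA.DeuringCM.I_mul_mem_lattice L h3 hlw
  have a := two_le_wp_sub_I h2 h3 hv hl hl2 hw hlw
  have b := two_le_wp_sub_I h2 h3 hv hl hl2 hw' hlw'
  rw [wp_I_mul h3, show -L.weierstrassP w - I = -(L.weierstrassP w + I) by ring, v.map_neg] at b
  refine le_of_pow_le_pow_left₀ two_ne_zero zero_le ?_
  rw [show L.weierstrassP w ^ 2 + 1 = (L.weierstrassP w - I) * (L.weierstrassP w + I) by
    linear_combination Complex.I_sq, map_mul, mul_pow, mul_pow, ← pow_mul, ← pow_mul,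
    ← pow_mul, show v (2 : ℂ) ^ (3 * 2) = v 2 ^ 3 * v 2 ^ 3 from pow_add (v 2) 3 3]
  exact mul_le_mul' a b

end FA.BirchTwists

end
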