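import Fermat.Agent.CoatesWiles.EisensteinSum
import Fermat.Agent.BirchTwists.TwoAdic

/-!
# The Eisenstein series of weight one over a square lattice

For `L = Ω ℤ[i]` the sums `∑ conj (x + l) |x + l| ^ (-2 s)` over `L`, their distribution relation
over the points of `n`-torsion, and the values of `℘` at the quarter period `α = -Ω / (2 + 2 i)`.
-/

set_option autoImplicit false

noncomputable section

open Complex (I)
open FA.CoatesWiles (kern diffSum diff2 kern_mul kern_neg)
open scoped Real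

namespace FA.BirchTwists

/-- A Gaussian integer as a complex number. -/
def gi (v : ℤ × ℤ) : ℂ := (v.1 : ℂ) + (v.2 : ℂ) * I

theorem gi_re (v : ℤ × ℤ) : (gi v).re = v.1 := by simp [gi]

theorem gi_im (v : ℤ × ℤ) : (gi v).im = v.2 := by simp [gi]

theorem gi_injective : Function.Injective gi := fun a b h => Prod.ext
  (by simpa [gi] using congrArg Complex.re h) (by simpa [gi] using congrArg Complex.im h)

/-- The lattice `Ω ℤ[i]`. -/
def IsSquareLattice (L : PeriodPair) (Ω : ℂ) : Prop :=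
  Ω ≠ 0 ∧ ∀ x : ℂ, x ∈ L.lattice ↔ ∃ v : ℤ × ℤ, x = Ω * gi v

variable {L : PeriodPair} {Ω : ℂ}

theorem IsSquareLattice.mem (h : IsSquareLattice L Ω) (v : ℤ × ℤ) : Ω * gi v ∈ L.lattice :=
  (h.2 _).2 ⟨v, rfl⟩

/-- The coordinates on the lattice. -/
def latEquiv (h : IsSquareLattice L Ω) : ℤ × ℤ ≃ L.lattice :=
  Equiv.ofBijective (fun v => ⟨Ω * gi v, h.mem v⟩)
    ⟨fun _ _ e => gi_injective (mul_left_cancel₀ h.1 (congrArg Subtype.val e)),
      fun x => let ⟨v, hv⟩ := (h.2 x).1 x.2; ⟨v, Subtype.ext hv.symm⟩⟩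

theorem coe_latEquiv (h : IsSquareLattice L Ω) (v : ℤ × ℤ) :
    ((latEquiv h v : L.lattice) : ℂ) = Ω * gi v := rfl

/-! ### The sum -/

/-- `∑ conj (x + l) |x + l| ^ (-2 s)`. -/
def latSum (L : PeriodPair) (x s : ℂ) : ℂ := ∑' l : L.lattice, kern s (x + l)

theorem norm_kern_le_rpow {s : ℂ} (z : ℂ) : ‖kern s z‖ ≤ ‖z‖ ^ (1 - 2 * s.re) := by
  rcases eq_or_ne z 0 with rfl | hz
  · rw [FA.CoatesWiles.kern_zero, norm_zero]; exact Real.rpow_nonneg le_rfl _
  · exact (FA.CoatesWiles.norm_kern hz s).le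

variable (L)

theorem summable_kern {s : ℂ} (hs : 3 / 2 < s.re) (x : ℂ) :
    Summable fun l : L.lattice => kern s (x + l) :=
  Summable.of_norm_bounded (FA.CoatesWiles.summable_norm_add_rpow L (by linarith) x)
    fun _ => norm_kern_le_rpow _

theorem latSum_add (x s : ℂ) {w : ℂ} (hw : w ∈ L.lattice) :
    latSum L (x + w) s = latSum L x s := by
  rw [latSum, latSum, ← (Equiv.addLeft (⟨w, hw⟩ : L.lattice)).tsum_eq
    fun l : L.lattice => kern s (x + l)]
  refine tsum_congr fun l => ?_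
  simp [add_assoc]

theorem latSum_neg (x s : ℂ) : latSum L (-x) s = -latSum L x s := by
  rw [latSum, latSum, ← tsum_neg, ← (Equiv.neg L.lattice).tsum_eq]
  refine tsum_congr fun l => ?_
  rw [← kern_neg]
  simp [add_comm]

/-- The second differences. -/
theorem diffSum_eq {s : ℂ} (hs : 3 / 2 < s.re) (x a : ℂ) :
    diffSum L x a s = latSum L (x + a) s + latSum L (x - a) s - 2 * latSum L x s := by
  rw [latSum, latSum, latSum, ← (summable_kern L hs _).tsum_add (summable_kern L hs _),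
    ← tsum_mul_left, ← Summable.tsum_sub ((summable_kern L hs _).add (summable_kern L hs _))
      ((summable_kern L hs _).mul_left 2)]
  exact tsum_congr fun l => by rw [diff2, add_right_comm x a, sub_add_eq_add_sub]

variable {L}

theorem latSum_eq_tsum (h : IsSquareLattice L Ω) (x s : ℂ) :
    latSum L x s = ∑' v : ℤ × ℤ, kern s (x + Ω * gi v) :=
  ((latEquiv h).tsum_eq fun l : L.lattice => kern s (x + l)).symm

/-! ### Torsion -/

/-- A pair of residues as a pair of integers in `[0, n)`. -/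
def lift' {n : ℕ} (y : ZMod n × ZMod n) : ℤ × ℤ := ((y.1.val : ℤ), (y.2.val : ℤ))

/-- The point of `n`-torsion. -/
def tors (Ω : ℂ) {n : ℕ} (y : ZMod n × ZMod n) : ℂ := Ω * gi (lift' y) / n

/-- Division with remainder in both coordinates. -/
def splitEquiv (n : ℕ) [NeZero n] : (ZMod n × ZMod n) × (ℤ × ℤ) ≃ ℤ × ℤ where
  toFun q := lift' q.1 + (n : ℤ) • q.2
  invFun v := (((v.1 : ZMod n), (v.2 : ZMod n)), (v.1 / n, v.2 / n))
  left_inv := by
    rintro ⟨⟨a, b⟩, c, d⟩
    have hn : (n : ℤ) ≠ 0 := by exact_mod_cast NeZero.ne n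
    have ha : ((a.val : ℤ)) / (n : ℤ) = 0 :=
      Int.ediv_eq_zero_of_lt (by positivity) (by exact_mod_cast a.val_lt)
    have hb : ((b.val : ℤ)) / (n : ℤ) = 0 :=
      Int.ediv_eq_zero_of_lt (by positivity) (by exact_mod_cast b.val_lt)
    simp [lift', Int.add_mul_ediv_left _ _ hn, -ZMod.natCast_val,
      ZMod.natCast_zmod_val, ha, hb]
  right_inv := by
    rintro ⟨c, d⟩
    simp only [lift', ZMod.val_intCast, Prod.mk_add_mk, Prod.smul_mk, smul_eq_mul, Prod.mk.injEq]
    exact ⟨Int.emod_add_mul_ediv c n, Int.emod_add_mul_ediv d n⟩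

theorem splitEquiv_apply (n : ℕ) [NeZero n] (y : ZMod n × ZMod n) (w : ℤ × ℤ) :
    gi (splitEquiv n (y, w)) = gi (lift' y) + n * gi w := by
  simp [splitEquiv, gi, lift']
  ring

/-- Integers with the same residues give the same point. -/
theorem tors_sub_mem (h : IsSquareLattice L Ω) {n : ℕ} [NeZero n] (v : ℤ × ℤ) :
    Ω * gi v / n - tors Ω ((v.1 : ZMod n), (v.2 : ZMod n)) ∈ L.lattice := by
  obtain ⟨⟨y, w⟩, rfl⟩ := (splitEquiv n).surjective v
  have e := (splitEquiv n).symm_apply_apply (y, w)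
  have e1 : ((((splitEquiv n) (y, w)).1 : ZMod n), (((splitEquiv n) (y, w)).2 : ZMod n)) = y :=
    congrArg Prod.fst e
  rw [e1, splitEquiv_apply, tors, show Ω * (gi (lift' y) + n * gi w) / n - Ω * gi (lift' y) / n =
    Ω * gi w by field_simp [NeZero.ne (n : ℂ)]; ring]
  exact h.mem w

theorem tors_neg_mem (h : IsSquareLattice L Ω) {n : ℕ} [NeZero n] (y : ZMod n × ZMod n) :
    -tors Ω y - tors Ω (-y) ∈ L.lattice := by
  have e := tors_sub_mem h (n := n) (-lift' y)
  have e2 : (((-lift' y).1 : ZMod n), ((-lift' y).2 : ZMod n)) = -y := by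
    simp [lift', Prod.ext_iff]
  rw [e2] at e
  convert e using 2
  simp [tors, gi]
  ring

theorem tors_notMem (h : IsSquareLattice L Ω) {n : ℕ} [NeZero n] {y : ZMod n × ZMod n}
    (hy : y ≠ 0) : tors Ω y ∉ L.lattice := by
  rintro hm
  obtain ⟨v, hv⟩ := (h.2 _).1 hm
  have hn : (n : ℂ) ≠ 0 := NeZero.ne _
  rw [tors, div_eq_iff hn] at hv
  have e : gi (lift' y) = gi ((n : ℤ) • v) := by
    refine mul_left_cancel₀ h.1 ?_
    rw [hv]
    simp [gi]
    ring
  obtain ⟨e1, e2⟩ := Prod.ext_iff.1 (gi_injective e)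
  refine hy (Prod.ext ?_ ?_)
  · have := congrArg (Int.cast : ℤ → ZMod n) e1
    simpa [lift'] using this
  · have := congrArg (Int.cast : ℤ → ZMod n) e2
    simpa [lift'] using this

theorem mul_tors_mem (h : IsSquareLattice L Ω) {n : ℕ} [NeZero n] (y : ZMod n × ZMod n) :
    (n : ℂ) * tors Ω y ∈ L.lattice := by
  rw [tors, mul_div_cancel₀ _ (NeZero.ne (n : ℂ))]
  exact h.mem _

/-- **The distribution relation.** -/
theorem sum_latSum_tors (h : IsSquareLattice L Ω) (n : ℕ) [NeZero n] {s : ℂ} (hs : 3 / 2 < s.re)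
    (x : ℂ) :
    ∑ y : ZMod n × ZMod n, latSum L (x + tors Ω y) s =
      kern s (1 / n) * latSum L (n * x) s := by
  have hn : (n : ℂ) ≠ 0 := NeZero.ne _
  have hK : Summable fun v : ℤ × ℤ => kern s (n * x + Ω * gi v) :=
    (latEquiv h).summable_iff.2 (summable_kern L hs (n * x))
  have hsplit : Summable fun q : (ZMod n × ZMod n) × (ℤ × ℤ) =>
      kern s (n * x + Ω * gi (splitEquiv n q)) := (splitEquiv n).summable_iff.2 hK
  rw [latSum_eq_tsum h, ← (splitEquiv n).tsum_eq, hsplit.tsum_prod, tsum_fintype, Finset.mul_sum]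
  refine Finset.sum_congr rfl fun y _ => ?_
  rw [latSum_eq_tsum h, ← tsum_mul_left]
  refine tsum_congr fun w => ?_
  rw [← kern_mul s (one_div_ne_zero hn), splitEquiv_apply, tors]
  congr 1
  field_simp
  ring

theorem sum_diffSum_tors (h : IsSquareLattice L Ω) (n : ℕ) [NeZero n] {s : ℂ} (hs : 3 / 2 < s.re)
    (x : ℂ) :
    ∑ y : ZMod n × ZMod n, diffSum L x (tors Ω y) s =
      2 * kern s (1 / n) * latSum L (n * x) s - 2 * (n : ℂ) ^ 2 * latSum L x s := by
  have hneg : ∑ y : ZMod n × ZMod n, latSum L (x - tors Ω y) s =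
      ∑ y : ZMod n × ZMod n, latSum L (x + tors Ω y) s := by
    rw [← Equiv.sum_comp (Equiv.neg (ZMod n × ZMod n))]
    refine Finset.sum_congr rfl fun y _ => ?_
    have e := latSum_add L (x + tors Ω y) s (tors_neg_mem h y)
    rw [← e, Equiv.neg_apply]
    congr 1
    ring
  simp only [diffSum_eq L hs]
  rw [Finset.sum_sub_distrib, Finset.sum_add_distrib, hneg, sum_latSum_tors h n hs,
    Finset.sum_const, Finset.card_univ, Fintype.card_prod, ZMod.card, nsmul_eq_mul]
  push_cast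
  ring

/-! ### The quarter period -/

/-- `-Ω / (2 + 2 i)`. -/
def alpha (Ω : ℂ) : ℂ := Ω * gi (-1, 1) / 4

theorem alpha_add_notMem (h : IsSquareLattice L Ω) {n : ℕ} (hn : ¬ 4 ∣ n) (v : ℤ × ℤ) :
    alpha Ω + Ω * gi v / n ∉ L.lattice := by
  intro hm
  obtain ⟨w, hw⟩ := (h.2 _).1 hm
  have hn0 : (n : ℂ) ≠ 0 := Nat.cast_ne_zero.2 fun e => hn (e ▸ dvd_zero 4)
  have e : gi (-(n : ℤ) + 4 * v.1, (n : ℤ) + 4 * v.2) = gi ((4 * (n : ℤ)) • w) := by
    refine mul_left_cancel₀ h.1 ?_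
    simp only [alpha, gi, Int.cast_neg, Int.cast_one] at hw
    field_simp at hw
    simp only [gi, Prod.smul_fst, Prod.smul_snd, smul_eq_mul]
    push_cast
    linear_combination hw
  obtain ⟨e1, -⟩ := Prod.ext_iff.1 (gi_injective e)
  simp only [Prod.smul_fst, smul_eq_mul] at e1
  refine hn (Int.natCast_dvd_natCast.1 ?_)
  exact ⟨v.1 - n * w.1, by push_cast; linarith⟩

theorem alpha_notMem (h : IsSquareLattice L Ω) : alpha Ω ∉ L.lattice := by
  simpa [gi] using alpha_add_notMem h (n := 1) (by norm_num) 0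

theorem alpha_add_tors_notMem (h : IsSquareLattice L Ω) {n : ℕ} (hn : ¬ 4 ∣ n)
    (y : ZMod n × ZMod n) : alpha Ω + tors Ω y ∉ L.lattice :=
  alpha_add_notMem h hn _

theorem alpha_sub_tors_notMem (h : IsSquareLattice L Ω) {n : ℕ} (hn : ¬ 4 ∣ n)
    (y : ZMod n × ZMod n) : alpha Ω - tors Ω y ∉ L.lattice := by
  have e := alpha_add_notMem h hn (-lift' y)
  rwa [show alpha Ω - tors Ω y = alpha Ω + Ω * gi (-lift' y) / n by
    simp [tors, gi]; ring]

theorem two_alpha (h : IsSquareLattice L Ω) : alpha Ω + alpha Ω ∉ L.lattice ∧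
    I * (alpha Ω + alpha Ω) - (alpha Ω + alpha Ω) ∈ L.lattice := by
  refine ⟨fun hm => ?_, ?_⟩
  · obtain ⟨w, hw⟩ := (h.2 _).1 hm
    have e : gi (-1, 1) = gi ((2 : ℤ) • w) := by
      refine mul_left_cancel₀ h.1 ?_
      simp only [alpha, gi] at hw
      simp only [gi, Prod.smul_fst, Prod.smul_snd, smul_eq_mul]
      push_cast at hw ⊢
      linear_combination 2 * hw
    have e1 := congrArg Prod.fst (gi_injective e)
    simp at e1
    omega
  · convert h.mem (0, -1) using 1
    simp [alpha, gi]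
    linear_combination (Ω / 2) * Complex.I_sq

theorem I_mul_gi (v : ℤ × ℤ) : I * gi v = gi (-v.2, v.1) := by
  simp [gi]
  linear_combination (v.2 : ℂ) * Complex.I_sq

variable (h2 : L.g₂ = 4) (h3 : L.g₃ = 0)

theorem weierstrassP_of_sub_mem {x y : ℂ} (hxy : x - y ∈ L.lattice) :
    L.weierstrassP x = L.weierstrassP y := by
  have := L.weierstrassP_add_coe y ⟨_, hxy⟩
  rwa [show y + (x - y) = x by ring] at this

include h2 h3

/-- The abscissa of the quarter period is `± i`. -/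
theorem wp_alpha (h : IsSquareLattice L Ω) :
    L.weierstrassP (alpha Ω) ^ 2 = -1 ∧
      L.derivWeierstrassP (alpha Ω) ≠ 0 := by
  obtain ⟨h2a, hfix⟩ := two_alpha h
  have h0 : L.weierstrassP (alpha Ω + alpha Ω) = 0 := by
    have e := (wp_I_mul h3 (alpha Ω + alpha Ω)).symm.trans (weierstrassP_of_sub_mem hfix)
    linear_combination (-1 / 2 : ℂ) * e
  obtain ⟨hq, hc, hd⟩ := wp_double h2 h3 (alpha_notMem h) h2a
  rw [h0, eq_comm, div_eq_zero_iff, or_iff_left (mul_ne_zero (by norm_num : (4 : ℂ) ≠ 0) hc),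
    pow_eq_zero_iff two_ne_zero] at hd
  exact ⟨eq_neg_of_add_eq_zero_left hd, hq⟩

/-- The abscissae of the points of order `2` are `0`, `± 1`. -/
theorem wp_half (h : IsSquareLattice L Ω) :
    L.weierstrassP (tors Ω ((1, 1) : ZMod 2 × ZMod 2)) = 0 ∧
      L.weierstrassP (tors Ω ((1, 0) : ZMod 2 × ZMod 2)) ^ 2 = 1 ∧
      L.weierstrassP (tors Ω ((0, 1) : ZMod 2 × ZMod 2)) =
        -L.weierstrassP (tors Ω ((1, 0) : ZMod 2 × ZMod 2)) := by
  have t : ∀ y : ZMod 2 × ZMod 2, tors Ω y = Ω * gi (lift' y) / 2 := fun y => by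
    simp [tors]
  have v1 : (1 : ZMod 2).val = 1 := rfl
  have h11 : L.weierstrassP (tors Ω ((1, 1) : ZMod 2 × ZMod 2)) = 0 := by
    have e := (wp_I_mul h3 (tors Ω ((1, 1) : ZMod 2 × ZMod 2))).symm.trans
      (weierstrassP_of_sub_mem (y := tors Ω ((1, 1) : ZMod 2 × ZMod 2)) (by
        convert h.mem (-1, 0) using 1
        simp [t, lift', v1, gi]
        linear_combination (Ω / 2) * Complex.I_sq))
    linear_combination (-1 / 2 : ℂ) * e
  have h01 : L.weierstrassP (tors Ω ((0, 1) : ZMod 2 × ZMod 2)) =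
      -L.weierstrassP (tors Ω ((1, 0) : ZMod 2 × ZMod 2)) := by
    rw [← wp_I_mul h3]
    refine congrArg _ ?_
    simp [t, lift', v1, gi]
    ring
  refine ⟨h11, ?_, h01⟩
  set a := tors Ω ((1, 0) : ZMod 2 × ZMod 2) with ha
  have hna : a ∉ L.lattice := tors_notMem h (by decide)
  have hnb : tors Ω ((1, 1) : ZMod 2 × ZMod 2) ∉ L.lattice := tors_notMem h (by decide)
  have hq : L.derivWeierstrassP a = 0 := by
    have e := L.derivWeierstrassP_add_coe (-a) ⟨(2 : ℕ) * a, mul_tors_mem h _⟩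
    rw [L.derivWeierstrassP_neg, show -a + ((2 : ℕ) * a : ℂ) = a by push_cast; ring] at e
    linear_combination (1 / 2 : ℂ) * e
  have hne : L.weierstrassP a ≠ 0 := by
    have key : ∀ v : ℤ × ℤ, ¬ 2 ∣ v.2 → Ω * gi v / 2 ∉ L.lattice := fun v hv hm => by
      obtain ⟨w, hw⟩ := (h.2 _).1 hm
      have e : gi v = gi ((2 : ℤ) • w) := by
        refine mul_left_cancel₀ h.1 ?_
        simp only [gi] at hw
        simp only [gi, Prod.smul_fst, Prod.smul_snd, smul_eq_mul]
        push_cast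
        linear_combination 2 * hw
      exact hv ⟨w.2, by simpa using congrArg Prod.snd (gi_injective e)⟩
    rw [← h11]
    refine FA.CoatesWiles.wp_ne_wp L hna hnb ?_ ?_
    · convert key (2, 1) (by norm_num) using 2
      simp [ha, t, lift', v1, gi]
      ring
    · convert key (0, -1) (by norm_num) using 2
      simp [ha, t, lift', v1, gi]
      ring
  have e := L.derivWeierstrassP_sq a hna
  rw [hq, h2, h3] at e
  exact mul_left_cancel₀ hne (by linear_combination (-1 / 4 : ℂ) * e)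

end FA.BirchTwists

end
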