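import Fermat.Agent.BirchTwists.NonVanishing
import Fermat.Agent.CoatesWiles.RationalMain
import Mathlib.Data.Rat.Lemmas

/-!
# `L (E_p, 1) ≠ 0` for `p ≡ 3 (mod 8)`

The curves `y² = x³ - p² x` have invariant `1728`; they are pairwise non-isomorphic over `ℚ`.
-/

set_option autoImplicit false

noncomputable section

open WeierstrassCurve
open FA.CM (congruentCurve)

namespace FA.BirchTwists

/-- The lattice of `y² = x³ - x`. -/
theorem exists_squareLattice :
    ∃ (L : PeriodPair) (Ω : ℂ), L.g₂ = 4 ∧ L.g₃ = 0 ∧ IsSquareLattice L Ω := by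
  obtain ⟨L, Ω, hW, hlat⟩ := FA.CoatesWiles.exists_lattice (d := -1) (v := 1728) (a := -1) (b := 0)
    (by unfold FA.CoatesWiles.IsMaximalInvariant; norm_num)
    (by norm_num [FA.CoatesWiles.shortInt, WeierstrassCurve.Δ, b₂, b₄, b₆, b₈]) (by norm_num)
  rw [FA.CoatesWiles.shortInt_map] at hW
  have e4 := congrArg WeierstrassCurve.a₄ hW
  have e6 := congrArg WeierstrassCurve.a₆ hW
  simp only [FA.Mazur.Wp.latCurve] at e4 e6
  push_cast at e4 e6
  have hom : FA.CMFields.omega (FA.FieldClassBound.discK (-1)) = -2 + Complex.I := by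
    have hs : Real.sqrt 4 = 2 := by
      rw [show (4 : ℝ) = 2 ^ 2 by norm_num, Real.sqrt_sq zero_le_two]
    norm_num [FA.CMFields.omega, FA.FieldClassBound.discK, hs]
    ring
  have hΩ : Ω ≠ 0 := fun e => L.ω₁_div_two_notMem_lattice (by
    obtain ⟨i, j, hij⟩ := (hlat _).1 L.ω₁_mem_lattice
    rw [hij, e, zero_mul, zero_div]
    exact zero_mem _)
  refine ⟨L, Ω, by linear_combination 4 * e4, by linear_combination 4 * e6, hΩ, fun x => ?_⟩
  rw [hlat, hom]
  constructor
  · rintro ⟨i, j, rfl⟩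
    exact ⟨(i - 2 * j, j), by simp only [gi]; push_cast; ring⟩
  · rintro ⟨⟨i, j⟩, rfl⟩
    exact ⟨i + 2 * j, j, by simp only [gi]; push_cast; ring⟩

/-- **`L (E_p, 1) ≠ 0`.** -/
theorem value_one_ne_zero' {p : ℕ} (hp : p.Prime) (h8 : p % 8 = 3) {g : ℂ → ℂ}
    (hg : DifferentiableOn ℂ g {s | 1 / 2 < s.re})
    (hgE : ∀ s : ℂ, 3 / 2 < s.re → g s = (congruentCurve p).LSeries s) : g 1 ≠ 0 :=
  haveI := Fact.mk hp
  let ⟨_, _, h2, h3, h⟩ := exists_squareLattice
  value_one_ne_zero h2 h3 h h8 hg hgE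

theorem isElliptic_congruentCurve {n : ℚ} (hn : n ≠ 0) : (congruentCurve n).IsElliptic :=
  ⟨isUnit_iff_ne_zero.mpr (by
    simp only [WeierstrassCurve.Δ, b₂, b₄, b₆, b₈]
    ring_nf
    exact mul_ne_zero (pow_ne_zero _ hn) (by norm_num))⟩

theorem j_congruentCurve {n : ℚ} [(congruentCurve n).IsElliptic] (hn : n ≠ 0) :
    (congruentCurve n).j = 1728 := by
  have h : (congruentCurve n).Δ = 64 * n ^ 6 := by
    simp only [WeierstrassCurve.Δ, b₂, b₄, b₆, b₈]; ring
  rw [WeierstrassCurve.j, Units.val_inv_eq_inv_val, coe_Δ', h,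
    (FA.CM.congruentCurve_invariants n).1]
  field_simp
  ring

/-- **Finitely many rational points.** -/
theorem finite_point {p : ℕ} (hp : p.Prime) (h8 : p % 8 = 3) :
    Finite (congruentCurve (p : ℚ)).toAffine.Point := by
  have hn : (p : ℚ) ≠ 0 := Nat.cast_ne_zero.2 hp.ne_zero
  have := isElliptic_congruentCurve hn
  obtain ⟨g, hg, hgE⟩ := FA.Summary.entire_continuation_congruentCurve (p : ℚ) hn
  have hgE' : ∀ s : ℂ, 3 / 2 < s.re → g s = (congruentCurve p).LSeries s :=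
    fun s hs => (hgE s hs).symm
  exact FA.CoatesWiles.finite_point_of_ne_zero _ (d := -1) (v := 1728)
    (by unfold FA.CoatesWiles.IsMaximalInvariant; norm_num) (by rw [j_congruentCurve hn]; norm_num)
    hg hgE' (value_one_ne_zero' hp h8 hg.differentiableOn hgE')

/-- Different primes give curves that are not isomorphic. -/
theorem eq_of_variableChange {p q : ℕ} (hp : p.Prime) (hq : q.Prime) {C : VariableChange ℚ}
    (h : C • congruentCurve (p : ℚ) = congruentCurve (q : ℚ)) : p = q := by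
  have e := congrArg WeierstrassCurve.c₄ h
  rw [variableChange_c₄, (FA.CM.congruentCurve_invariants _).1,
    (FA.CM.congruentCurve_invariants _).1] at e
  set u : ℚ := ((C.u⁻¹ : ℚˣ) : ℚ)
  have hsq : (q : ℚ) = u ^ 2 * p := by
    refine (sq_eq_sq₀ (Nat.cast_nonneg q) (by positivity)).1 ?_
    linear_combination (-1 / 48 : ℚ) * e
  have hsq' : IsSquare (((q * p : ℕ) : ℚ)) := ⟨u * p, by push_cast; rw [hsq]; ring⟩
  obtain ⟨r, hr⟩ := Rat.isSquare_natCast_iff.1 hsq'
  by_contra hne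
  have hr1 := Nat.isUnit_iff.1
    ((Nat.squarefree_mul_iff.2 ⟨(Nat.coprime_primes hq hp).2 (Ne.symm hne), hq.squarefree,
      hp.squarefree⟩) r ⟨1, by rw [mul_one, hr]⟩)
  rw [hr1, mul_one] at hr
  exact hq.one_lt.ne' (Nat.eq_one_of_mul_eq_one_right hr)

end FA.BirchTwists

end
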