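import Fermat.Agent.BirchTwists.Series
import Fermat.Agent.BirchTwists.Distribution

/-!
# The value at `1` is not zero

Adding the unweighted sum `p (p + 1) / 2`, of valuation that of `2`, to the sum weighted by the
character leaves eight times a sum over a quarter of the residues with character `1`; by the bound
at a place over `2` it is smaller. So the weighted sum, hence `L (E_p, 1)`, is not zero.
-/

set_option autoImplicit false

noncomputable section

open Complex (I)
open FA.CoatesWiles (kern diffSum)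
open FA.CM (congruentCurve)

namespace FA.BirchTwists

variable {L : PeriodPair} {Ω : ℂ} {p : ℕ} [Fact p.Prime]

/-- A quarter of the non-zero residues. -/
def InQuarter (y : ZMod p × ZMod p) : Prop :=
  1 ≤ y.1.val ∧ y.1.val ≤ (p - 1) / 2 ∧ y.2.val ≤ (p - 1) / 2

instance (y : ZMod p × ZMod p) : Decidable (InQuarter y) := by unfold InQuarter; infer_instance

/-- The indicator of the quarter. -/
def quarter (y : ZMod p × ZMod p) : ℂ := if InQuarter y then 1 else 0

/-- Exactly one of four rotated residues is in the quarter. -/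
theorem quarter_add (hp : p ≠ 2) {y : ZMod p × ZMod p} (hy : y ≠ 0) :
    quarter y + quarter (-y.2, y.1) + quarter (-y.1, -y.2) + quarter (y.2, -y.1) = 1 := by
  obtain ⟨a, b⟩ := y
  have hodd : p % 2 = 1 := Nat.odd_iff.1 ((Fact.out : p.Prime).odd_of_ne_two hp)
  have ha := a.val_lt
  have hb := b.val_lt
  have hne : ¬(a.val = 0 ∧ b.val = 0) := fun e =>
    hy (Prod.ext ((ZMod.val_eq_zero a).1 e.1) ((ZMod.val_eq_zero b).1 e.2))
  simp only [quarter, InQuarter, ZMod.neg_val, ← ZMod.val_eq_zero]
  rcases Nat.eq_zero_or_pos a.val with a0 | a0 <;> rcases Nat.eq_zero_or_pos b.val with b0 | b0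
  · exact absurd ⟨a0, b0⟩ hne
  all_goals
    by_cases ha2 : a.val ≤ (p - 1) / 2 <;> by_cases hb2 : b.val ≤ (p - 1) / 2 <;>
      split_ifs <;> first | omega | norm_num

/-- A sum invariant under rotation is four times that over the quarter. -/
theorem sum_eq_four_mul (hp : p ≠ 2) (g : ZMod p × ZMod p → ℂ) (hg0 : g 0 = 0)
    (hg : ∀ y, g (-y.2, y.1) = g y) :
    ∑ y, g y = 4 * ∑ y, g y * quarter y := by
  let r : ZMod p × ZMod p ≃ ZMod p × ZMod p :=
    { toFun := fun y => (-y.2, y.1)
      invFun := fun y => (y.2, -y.1)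
      left_inv := fun y => by simp
      right_inv := fun y => by simp }
  have hr : ∀ u : ZMod p × ZMod p → ℂ, ∑ y, g y * u (r y) = ∑ y, g y * u y := fun u => by
    rw [← r.sum_comp fun y => g y * u y]
    exact Finset.sum_congr rfl fun y _ => by simp [r, hg]
  calc ∑ y, g y = ∑ y, g y * (quarter y + quarter (r y) + quarter (r (r y)) +
      quarter (r (r (r y)))) := Finset.sum_congr rfl fun y _ => by
        rcases eq_or_ne y 0 with rfl | hy
        · rw [hg0, zero_mul]
        · simp only [r, Equiv.coe_fn_mk, neg_neg]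
          rw [quarter_add hp hy, mul_one]
    _ = _ := by
        simp only [mul_add, Finset.sum_add_distrib]
        rw [hr (fun y => quarter (r (r y))), hr (fun y => quarter (r y)), hr quarter]
        ring

theorem normChar_eq (hp : p % 4 = 3) {y : ZMod p × ZMod p} (hy : y ≠ 0) :
    normChar p y = 1 ∨ normChar p y = -1 := by
  have hne : y.1 ^ 2 + y.2 ^ 2 ≠ 0 := fun e => by
    rcases eq_or_ne y.2 0 with h | h
    · exact hy (Prod.ext (by simpa [h] using e) h)
    · exact ZMod.mod_four_ne_three_of_sq_eq_neg_sq' h (eq_neg_of_add_eq_zero_left e) hp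
  rcases quadraticChar_dichotomy hne with e | e <;> simp [normChar, e]

variable (h2 : L.g₂ = 4) (h3 : L.g₃ = 0) (h : IsSquareLattice L Ω) (hp8 : p % 8 = 3)

include h2 h3 h hp8

/-- **The weighted sum has the valuation of `2`** at every place over `2`. -/
theorem map_sum_normChar_weight {Γ : Type*} [LinearOrderedCommGroupWithZero Γ]
    (v : Valuation ℂ Γ) (hv : v (2 : ℂ) < 1) :
    v (∑ y, normChar p y * weight L Ω y) = v 2 := by
  have hp2 : p ≠ 2 := by omega
  have hp4 : p % 4 = 3 := by omega
  set g : ZMod p × ZMod p → ℂ := fun y => if y = 0 then 0 else (normChar p y + 1) * weight L Ω y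
  have hgsum : ∑ y, g y = ∑ y, normChar p y * weight L Ω y + (p : ℂ) * (p + 1) / 2 := by
    rw [← sum_weight h2 h3 h hp4, ← Finset.sum_add_distrib]
    refine Finset.sum_congr rfl fun y _ => ?_
    simp only [g]
    split_ifs with hy
    · rw [hy, normChar_zero, zero_mul, add_zero]
    · ring
  have hgrot : ∀ y, g (-y.2, y.1) = g y := fun y => by
    have e : (-y.2, y.1) = (0 : ZMod p × ZMod p) ↔ y = 0 := by simp [Prod.ext_iff, and_comm]
    simp only [g, e, normChar_rot, weight, wp_tors_rot h3 h, neg_sq]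
  have hterm : ∀ y, v (g y * quarter y) ^ 2 * v 2 ≤ 1 := fun y => by
    rcases eq_or_ne (g y * quarter y) 0 with e | e
    · rw [e, map_zero, zero_pow two_ne_zero, zero_mul]; exact zero_le
    have hy : y ≠ 0 := fun e' => e (by simp [g, e'])
    have hq : quarter y = 1 := by
      unfold quarter at e ⊢
      split_ifs with hr
      · rfl
      · simp [hr] at e
    rcases normChar_eq hp4 hy with e' | e'
    swap
    · exact absurd (by simp [g, hy, e']) e
    have hb := two_le_wp_sq_add_one h2 h3 hv (Fact.out : p.Prime) hp2 (tors_notMem h hy)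
      (mul_tors_mem h y)
    have hW : 0 < v (L.weierstrassP (tors Ω y) ^ 2 + 1) ^ 2 :=
      pow_pos (zero_lt_iff.2 ((Valuation.ne_zero_iff v).2
        (wp_sq_add_one_ne_zero h2 h3 h (by omega) hy))) 2
    simp only [g, hy, if_false, hq, mul_one, e', weight, one_add_one_eq_two, map_mul, map_inv₀]
    rw [mul_pow, inv_pow, mul_right_comm, ← pow_succ, ← div_eq_mul_inv, div_le_one₀ hW]
    exact hb
  have hsum : v (∑ y, g y * quarter y) ^ 2 * v 2 ≤ 1 := by
    obtain ⟨y₀, -, hy₀⟩ := Finset.exists_max_image Finset.univ (fun y => v (g y * quarter y))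
      Finset.univ_nonempty
    exact (mul_le_mul_left (pow_le_pow_left₀ zero_le
      (v.map_sum_le fun y hy => hy₀ y hy) 2) _).trans (hterm y₀)
  have hS : v ((p : ℂ) * (p + 1) / 2) = v 2 := by
    obtain ⟨k, hk⟩ : ∃ k, p + 1 = 4 * (2 * k + 1) := ⟨(p + 1) / 8, by omega⟩
    have hk' : (p : ℂ) + 1 = 4 * (2 * (k : ℂ) + 1) := by exact_mod_cast hk
    have e : v ((((p : ℤ) * (2 * k + 1) : ℤ)) : ℂ) = 1 :=
      FA.Hatada.map_intCast_eq_one Nat.prime_two (by simpa using hv) fun hdvd => by
        rcases (Nat.prime_iff_prime_int.1 Nat.prime_two).dvd_mul.1 hdvd with d | d <;> omega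
    rw [show (p : ℂ) * (p + 1) / 2 = 2 * ((((p : ℤ) * (2 * k + 1) : ℤ)) : ℂ) by
      push_cast; rw [hk']; ring, map_mul, e, mul_one]
  rw [sum_eq_four_mul hp2 g (if_pos rfl) hgrot] at hgsum
  have hlt : v (4 * ∑ y, g y * quarter y) < v 2 := by
    refine lt_of_pow_lt_pow_left₀ 2 zero_le ?_
    calc v (4 * ∑ y, g y * quarter y) ^ 2 =
          v 2 ^ 3 * (v (∑ y, g y * quarter y) ^ 2 * v 2) := by
            rw [map_mul, map_four, mul_pow, ← pow_mul, mul_comm _ (v 2), ← mul_assoc,
              ← pow_succ]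
      _ ≤ v 2 ^ 3 := mul_le_of_le_one_right' hsum
      _ < v 2 ^ 2 := pow_lt_pow_right_of_lt_one₀ (map_two_pos v) hv (by norm_num)
  rw [eq_sub_of_add_eq hgsum.symm, v.map_sub_eq_of_lt_right (by rwa [hS]), hS]

/-- **The weighted sum is not zero.** -/
theorem sum_normChar_weight_ne_zero : ∑ y, normChar p y * weight L Ω y ≠ 0 := fun e => by
  obtain ⟨O, hO⟩ := FA.Hatada.exists_valuation Nat.prime_two
  have := map_sum_normChar_weight h2 h3 h hp8 O.valuation (by simpa using hO)
  rw [e, map_zero] at this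
  exact (map_two_pos O.valuation).ne this

/-- **The value at `1`.** -/
theorem value_one_eq {g : ℂ → ℂ} (hg : DifferentiableOn ℂ g {s | 1 / 2 < s.re})
    (hgE : ∀ s : ℂ, 3 / 2 < s.re → g s = (congruentCurve p).LSeries s) :
    g 1 = L.weierstrassP (alpha Ω) * L.derivWeierstrassP (alpha Ω) *
      (∑ y, normChar p y * weight L Ω y) * Ω / (2 * ((2 + 2 * I) * p)) := by
  set F : ℂ → ℂ := fun s => -kern s ((2 + 2 * I) * p / Ω) / 2 *
    ∑ y : ZMod p × ZMod p, normChar p y * diffSum L (alpha Ω) (tors Ω y) s with hF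
  set U : Set ℂ := {z | 1 / 2 < z.re}
  have hU : IsOpen U := isOpen_lt continuous_const Complex.continuous_re
  have hd : DifferentiableOn ℂ F U :=
    ((((FA.CoatesWiles.differentiable_kern _).differentiableOn).fun_neg).div_const _).mul
      (DifferentiableOn.fun_sum fun y _ => (FA.CoatesWiles.differentiableOn_diffSum L
        (alpha_notMem h) (tors Ω y)).const_mul _)
  have hev : g =ᶠ[nhds (2 : ℂ)] F := Filter.eventuallyEq_of_mem
    ((isOpen_lt continuous_const Complex.continuous_re).mem_nhds (by norm_num :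
      (3 / 2 : ℝ) < (2 : ℂ).re)) fun s hs => (hgE s hs).trans (LSeries_eq_sum hp8 h hs)
  have hval : g 1 = F 1 := (hg.analyticOnNhd hU).eqOn_of_preconnected_of_eventuallyEq
    (hd.analyticOnNhd hU) (convex_halfSpace_re_gt _).isPreconnected
    (show (2 : ℂ) ∈ U by norm_num [U]) hev (show (1 : ℂ) ∈ U by norm_num [U])
  rw [hval, hF]
  simp only
  rw [sum_mul_diffSum h2 h3 h (by omega) (normChar p) (normChar_zero p) (normChar_rot p),
    FA.CoatesWiles.kern_one, inv_div]
  simp only [div_eq_mul_inv, mul_inv]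
  ring

/-- **`L (E_p, 1) ≠ 0`** for every continuation. -/
theorem value_one_ne_zero {g : ℂ → ℂ} (hg : DifferentiableOn ℂ g {s | 1 / 2 < s.re})
    (hgE : ∀ s : ℂ, 3 / 2 < s.re → g s = (congruentCurve p).LSeries s) : g 1 ≠ 0 := by
  obtain ⟨hX, hD⟩ := wp_alpha h2 h3 h
  have hX0 : L.weierstrassP (alpha Ω) ≠ 0 := fun e => by simp [e] at hX
  have hI : (2 + 2 * I : ℂ) ≠ 0 := fun e => by
    have := congrArg Complex.re e
    simp at this
  rw [value_one_eq h2 h3 h hp8 hg hgE]
  exact div_ne_zero (mul_ne_zero (mul_ne_zero (mul_ne_zero hX0 hD)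
    (sum_normChar_weight_ne_zero h2 h3 h hp8)) h.1)
    (mul_ne_zero two_ne_zero (mul_ne_zero hI (NeZero.ne _)))

end FA.BirchTwists

end
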