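import Fermat.Agent.CM.Eigen32
import Fermat.Agent.CM.CongruentCurves
import Fermat.Agent.Root.SummaryTwistedCentralValues
import Fermat.Agent.Root.SummaryCentralValueExact
import Fermat.Agent.Root.SummaryCentralValue

/-!
# The rationality of `L (E_n, 1) / ω_n`

The twists of `η(4z)² η(8z)²` by `1` and by the character modulo `4` have the same coefficients and
a value at `1` other than `0`, so both least periods are rational multiples of
`Γ(1/4)² / √(2 π)`; by Birch's rationality all quadratic twists follow.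
-/

set_option autoImplicit false

noncomputable section

open WeierstrassCurve
open FA.CM (congruentCurve coeff32 qCoeff_form32)
open scoped Real

namespace FA.BirchTwists

/-- The least real period of `y² = x³ - n² x`. -/
def period (n : ℚ) : ℝ := Real.Gamma (1 / 4) ^ 2 / (2 * √(2 * π * |(n : ℝ)|))

theorem congruentCurve_one : congruentCurve 1 = (⟨0, 0, 0, -1, 0⟩ : WeierstrassCurve ℚ) := by
  norm_num [congruentCurve]

theorem cast_coeff32 (k : ℕ) :
    (coeff32 k : ℂ) = ((⟨0, 0, 0, -1, 0⟩ : WeierstrassCurve ℚ).LFunction k : ℂ) := by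
  rw [← qCoeff_form32, ← congruentCurve_one,
    FA.CM.LFunction_congruentCurve (n := 1) (t := 1) (D := 1) squarefree_one one_ne_zero
      (by norm_num) (fun _ => 1) rfl (fun _ _ => (one_mul 1).symm)
      (fun l _ _ => by rw [jacobiSym.one_left, Int.cast_one]) k, one_mul]

/-- The coefficients of the curve of the class `|D|` are twists. -/
theorem exists_char_congruentCurve {D : ℤ} (hD : Squarefree D) :
    ∃ (q : ℕ) (ψ : DirichletCharacter ℂ q), q = (if D % 4 = 1 then D.natAbs else 4 * D.natAbs) ∧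
      0 < q ∧ (∀ u : (ZMod q)ˣ, ψ u * ψ u = 1) ∧
      (∀ p : ℕ, p.Prime → p ∣ q → ∃ n : ℕ, ((q / p : ℕ) : ℤ) ∣ (n : ℤ) - 1 ∧
        ψ (n : ZMod q) = -1) ∧
      (∀ l : ℕ, l.Prime → l ≠ 2 → ψ (l : ZMod q) = (jacobiSym D l : ℂ)) ∧
      ∀ {n t : ℚ}, t ≠ 0 → n ^ 2 = (t ^ 2 * D) ^ 2 → ∀ k : ℕ,
        ((congruentCurve n).LFunction k : ℂ) = ψ (k : ZMod q) * (coeff32 k : ℂ) := by
  obtain ⟨q, ψ, hq, hq0, hψ, hnd, hval⟩ := FA.Twists.exists_twistSign_char hD
  have hl : ∀ l : ℕ, l.Prime → l ≠ 2 → ψ (l : ZMod q) = (jacobiSym D l : ℂ) := fun l hp h2 => by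
    rw [hval l hp, FA.Twists.twistSign, if_neg h2]
  refine ⟨q, ψ, hq, hq0, hψ, hnd, hl, fun {n t} ht hn k => ?_⟩
  rw [FA.CM.LFunction_congruentCurve hD ht hn (fun k => ψ (k : ZMod q)) (by simp)
    (fun a b => by push_cast; rw [map_mul]) hl k, qCoeff_form32]

/-- **Birch's rationality**: `L (E_n, 1)` is a rational multiple of the real period. -/
theorem centralValue_rat {n : ℚ} (hn : n ≠ 0) {G : ℂ → ℂ} (hG : Differentiable ℂ G)
    (hGs : ∀ s : ℂ, 2 < s.re → G s = (congruentCurve n).LSeries s) :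
    ∃ r : ℚ, G 1 = r * (period n : ℂ) := by
  obtain ⟨Ωp, Ωm, -, -, hval⟩ := FA.Summary.twisted_centralValue_rationality
    FA.CM.form32_isNormalizedEigenform (a := coeff32) qCoeff_form32
  obtain ⟨g, hg, hgs, -, -⟩ := FA.Summary.centralValue_32a
  have hgs' : ∀ s : ℂ, 2 < s.re →
      g s = (⟨0, 0, 0, -1, 0⟩ : WeierstrassCurve ℚ).LSeries s := fun s hs => hgs s (by linarith)
  set B : ℂ := ((Real.Gamma (1 / 4) ^ 2 / (8 * √(2 * π)) : ℝ) : ℂ) with hB
  have hg1 : g 1 = B := FA.Summary.centralValue_32a_exact hg hgs'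
  have hB0 : B ≠ 0 := Complex.ofReal_ne_zero.2 (div_pos (pow_pos
    (Real.Gamma_pos_of_pos (by norm_num)) 2) (by positivity)).ne'
  -- the two least periods
  obtain ⟨a, ha⟩ := (hval 1 (1 : DirichletCharacter ℂ 1) (fun u => by simp)
    (fun p hp hd => absurd (Nat.dvd_one.mp hd) hp.ne_one) g hg fun s hs => by
      rw [hgs' s hs, WeierstrassCurve.LSeries]
      refine congrArg (LSeries · s) (funext fun k => ?_)
      rw [MulChar.one_apply (isUnit_of_subsingleton _), one_mul, cast_coeff32]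
      rfl).1 (MulChar.one_apply (isUnit_of_subsingleton _))
  rw [Nat.cast_one, Real.sqrt_one, Complex.ofReal_one, one_mul, hg1] at ha
  obtain ⟨q, ψ, hq, -, hψ, hnd, hl, hcoeff⟩ :=
    exists_char_congruentCurve (D := -1) isUnit_one.neg.squarefree
  obtain rfl : q = 4 := by rw [hq]; norm_num
  obtain ⟨b, hb⟩ := (hval 4 ψ hψ hnd g hg fun s hs => by
      rw [hgs' s hs, WeierstrassCurve.LSeries]
      refine congrArg (LSeries · s) (funext fun k => ?_)
      rw [← hcoeff (n := 1) (t := 1) one_ne_zero (by norm_num) k, congruentCurve_one]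
      rfl).2 (by
    rw [show (-1 : ZMod 4) = ((3 : ℕ) : ZMod 4) by decide, hl 3 Nat.prime_three (by norm_num)]
    norm_num)
  rw [show (Real.sqrt ((4 : ℕ) : ℝ)) = 2 by
    rw [show ((4 : ℕ) : ℝ) = 2 ^ 2 by norm_num, Real.sqrt_sq zero_le_two], hg1,
    Complex.ofReal_ofNat] at hb
  have ha0 : (a : ℂ) ≠ 0 := fun e => hB0 (by rw [ha, e, zero_mul])
  have hb0 : (b : ℂ) ≠ 0 := fun e => hB0 (by simpa [e] using hb)
  -- the twist of the class
  obtain ⟨D, t, hD, ht, rfl⟩ := FA.Twists.exists_squarefree_mul_sq hn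
  obtain ⟨q', ψ', hq', hq0', hψ', hnd', -, hcoeff'⟩ := exists_char_congruentCurve hD
  have : NeZero q' := ⟨hq0'.ne'⟩
  have hsign : ψ' (-1) = 1 ∨ ψ' (-1) = -1 := by
    refine mul_self_eq_one_iff.mp ?_
    rw [← map_mul, neg_one_mul, neg_neg, map_one]
  obtain ⟨he, ho⟩ := hval q' ψ' hψ' hnd' G hG fun s hs => by
    rw [hGs s hs, WeierstrassCurve.LSeries]
    exact congrArg (LSeries · s) (funext fun k => hcoeff' (t := t) ht rfl k)
  obtain ⟨r, hr⟩ : ∃ r : ℚ, (Real.sqrt q' : ℂ) * G 1 = r * B := by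
    rcases hsign with h | h
    · obtain ⟨r, hr⟩ := he h
      refine ⟨r / a, ?_⟩
      rw [hr, ha]; push_cast; field_simp
    · obtain ⟨r, hr⟩ := ho h
      refine ⟨2 * r / b, ?_⟩
      rw [hr, show B = (b : ℂ) * Ωm / 2 by rw [← hb]; ring]
      push_cast; field_simp
  obtain ⟨c, hc, hqc⟩ : ∃ c : ℕ, c ≠ 0 ∧ √(q' : ℝ) = c * √(|(D : ℝ)|) := by
    rw [← Int.cast_abs, Int.abs_eq_natAbs, Int.cast_natCast, hq']
    split_ifs
    · exact ⟨1, one_ne_zero, by simp⟩
    · refine ⟨2, two_ne_zero, ?_⟩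
      push_cast
      rw [show (4 : ℝ) = 2 ^ 2 by norm_num, Real.sqrt_mul (by norm_num),
        Real.sqrt_sq zero_le_two]
  have hD0 : 0 < |(D : ℝ)| := abs_pos.2 (Int.cast_ne_zero.2 hD.ne_zero)
  have hp : period (t ^ 2 * D) * (4⁻¹ * |(t : ℝ)| * √(|(D : ℝ)|)) =
      Real.Gamma (1 / 4) ^ 2 / (8 * √(2 * π)) := by
    rw [period]
    push_cast
    rw [abs_mul, abs_pow, Real.sqrt_mul (by positivity : (0 : ℝ) ≤ 2 * π) (|(t : ℝ)| ^ 2 * _),
      Real.sqrt_mul (sq_nonneg |(t : ℝ)|), Real.sqrt_sq (abs_nonneg _)]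
    have h1 : √(|(D : ℝ)|) ≠ 0 := (Real.sqrt_pos.2 hD0).ne'
    have h2 : |(t : ℝ)| ≠ 0 := abs_ne_zero.2 (Rat.cast_ne_zero.2 ht)
    field_simp
    ring
  refine ⟨r * |t| / (4 * c), mul_left_cancel₀ (b := G 1)
    (show (Real.sqrt q' : ℂ) ≠ 0 from Complex.ofReal_ne_zero.2
      (Real.sqrt_pos.2 (Nat.cast_pos.2 hq0')).ne') ?_⟩
  rw [hr, hB, ← hp, hqc]
  have hc' : (c : ℂ) ≠ 0 := Nat.cast_ne_zero.2 hc
  rw [show ((r * |t| / (4 * c) : ℚ) : ℂ) = ((((r * |t| / (4 * c) : ℚ)) : ℝ) : ℂ) by norm_cast]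
  push_cast
  field_simp

end FA.BirchTwists

end
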