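import Fermat.Agent.BirchTwists.NonVanishing
import Fermat.Agent.BirchTwists.Rationality
import Mathlib.NumberTheory.Padics.PadicVal.Basic

/-!
# The two-part of `L (E_p, 1) / ω_p`, `p ≡ 3 (mod 8)`

At every place over `2` the quotient has absolute value `1`; being rational, its numerator and
denominator are odd.
-/

set_option autoImplicit false

noncomputable section

open Complex (I)
open FA.CM (congruentCurve)
open scoped Real

namespace FA.BirchTwists

/-- A rational of absolute value `1` at a place over `2` has odd numerator and denominator. -/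
theorem odd_of_map_eq_one {Γ : Type*} [LinearOrderedCommGroupWithZero Γ] {v : Valuation ℂ Γ}
    (hv : v (2 : ℂ) < 1) {r : ℚ} (h : v (r : ℂ) = 1) : Odd r.num ∧ Odd r.den := by
  have hv' : v ((2 : ℕ) : ℂ) < 1 := by simpa using hv
  have hd : (r.den : ℂ) ≠ 0 := Nat.cast_ne_zero.2 r.den_nz
  have hnd : v (r.num : ℂ) = v (r.den : ℂ) := by
    rwa [Rat.cast_def, map_div₀, div_eq_one_iff_eq ((Valuation.ne_zero_iff v).2 hd)] at h
  have hnot : ¬ ((2 : ℤ) ∣ r.num ∧ 2 ∣ r.den) := fun ⟨a, b⟩ => by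
    have := Nat.eq_one_of_dvd_coprimes r.reduced (Int.natCast_dvd.1 (by simpa using a)) b
    omega
  refine ⟨Int.not_even_iff_odd.1 fun e => ?_, Nat.not_even_iff_odd.1 fun e => ?_⟩
  · have h1 := FA.Hatada.map_intCast_lt_one hv' (n := r.num) (by simpa using e.two_dvd)
    have h2 := FA.Hatada.map_intCast_eq_one Nat.prime_two hv' (n := (r.den : ℤ)) fun hd2 =>
      hnot ⟨e.two_dvd, by exact_mod_cast hd2⟩
    rw [Int.cast_natCast] at h2
    exact h1.ne (hnd.trans h2)
  · have h1 := FA.Hatada.map_intCast_lt_one hv' (n := (r.den : ℤ))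
      (by exact_mod_cast e.two_dvd)
    have h2 := FA.Hatada.map_intCast_eq_one Nat.prime_two hv' (n := r.num) fun hn2 =>
      hnot ⟨by simpa using hn2, e.two_dvd⟩
    rw [Int.cast_natCast] at h1
    exact h1.ne (hnd.symm.trans h2)

theorem padicValRat_two_eq_zero {r : ℚ} (h : Odd r.num ∧ Odd r.den) : padicValRat 2 r = 0 := by
  rw [padicValRat, padicValInt.eq_zero_of_not_dvd, padicValNat.eq_zero_of_not_dvd, sub_self]
  · exact fun e => Nat.not_even_iff_odd.2 h.2 (even_iff_two_dvd.2 e)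
  · exact fun e => Int.not_even_iff_odd.2 h.1 (even_iff_two_dvd.2 (by simpa using e))

/-- The square lattice of `y² = x³ - x` with its real generator. -/
theorem exists_realSquareLattice :
    ∃ L : PeriodPair, L.g₂ = 4 ∧ L.g₃ = 0 ∧
      IsSquareLattice L ((Real.Gamma (1 / 4) ^ 2 / (2 * √(2 * π)) : ℝ) : ℂ) := by
  obtain ⟨L, h2, h3⟩ := FA.JInj.exists_g₂_g₃ (a := 4) (b := 0) (by norm_num)
  have h₂ : L.g₂ = ((4 * (1 : ℝ) ^ 2 : ℝ) : ℂ) := by rw [h2]; norm_num
  obtain ⟨ω, hω, hper, hval⟩ := FA.Summary.congruentCurve_realPeriod L one_pos h₂ h3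
  have hmem := FA.RealPoints.mem_lattice_square L h₂ h3 hω hper one_pos (by norm_num)
    (fun t ht => by nlinarith [one_lt_pow₀ ht two_ne_zero])
  rw [mul_one] at hval
  exact ⟨L, h2, h3, by rw [← hval]; exact ⟨Complex.ofReal_ne_zero.2 hω.ne', hmem⟩⟩

/-- **The two-part**: `L (E_p, 1)` is the real period times a rational with odd numerator and
denominator. -/
theorem exists_odd_centralValue {p : ℕ} (hp : p.Prime) (h8 : p % 8 = 3) {G : ℂ → ℂ}
    (hG : Differentiable ℂ G)
    (hGs : ∀ s : ℂ, 3 / 2 < s.re → G s = (congruentCurve p).LSeries s) :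
    ∃ r : ℚ, G 1 = r * (period p : ℂ) ∧ Odd r.num ∧ Odd r.den := by
  have := Fact.mk hp
  obtain ⟨r, hr⟩ := centralValue_rat (n := (p : ℚ)) (Nat.cast_ne_zero.2 hp.ne_zero) hG
    fun s hs => hGs s (by linarith)
  refine ⟨r, hr, ?_⟩
  obtain ⟨O, hO⟩ := FA.Hatada.exists_valuation Nat.prime_two
  set v := O.valuation
  have hv : v (2 : ℂ) < 1 := by simpa using hO
  obtain ⟨L, h2, h3, h⟩ := exists_realSquareLattice
  set ω : ℝ := Real.Gamma (1 / 4) ^ 2 / (2 * √(2 * π)) with hω
  set X := L.weierstrassP (alpha (ω : ℂ))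
  set D := L.derivWeierstrassP (alpha (ω : ℂ))
  set S := ∑ y, normChar p y * weight L (ω : ℂ) y
  obtain ⟨hX, -⟩ := wp_alpha h2 h3 h
  have hI : (2 + 2 * I : ℂ) ≠ 0 := fun e => by
    have := congrArg Complex.re e
    simp at this
  set σ : ℂ := ((√(p : ℝ) : ℝ) : ℂ) with hσ
  have hσ2 : σ ^ 2 = p := by
    rw [hσ, ← Complex.ofReal_pow, Real.sq_sqrt p.cast_nonneg, Complex.ofReal_natCast]
  have hσ0 : σ ≠ 0 := Complex.ofReal_ne_zero.2 (Real.sqrt_pos.2 (Nat.cast_pos.2 hp.pos)).ne'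
  have hper : (period (p : ℚ) : ℂ) = ω / σ := by
    rw [period, hσ, hω, ← Complex.ofReal_div, Rat.cast_natCast, Nat.abs_cast,
      Real.sqrt_mul (by positivity)]
    congr 1
    rw [div_div, ← mul_assoc]
  have heq : (r : ℂ) * (2 * (2 + 2 * I) * σ) = X * D * S := by
    have e := (value_one_eq h2 h3 h h8 hG.differentiableOn hGs).symm.trans hr
    rw [hper] at e
    have hω0 : (ω : ℂ) ≠ 0 := h.1
    have hp0 : (p : ℂ) ≠ 0 := NeZero.ne _
    generalize 2 + 2 * I = c at e hI ⊢
    field_simp at e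
    rw [← hσ2] at e
    refine mul_left_cancel₀ hσ0 ?_
    linear_combination -e
  have vX : v X = 1 := (pow_eq_one_iff_of_nonneg zero_le two_ne_zero).1 (by
    rw [← map_pow, hX, v.map_neg, map_one])
  have vσ : v σ = 1 := (pow_eq_one_iff_of_nonneg zero_le two_ne_zero).1 (by
    rw [← map_pow, hσ2]
    have := FA.Hatada.map_intCast_eq_one Nat.prime_two hO (n := (p : ℤ)) (by omega)
    simpa using this)
  have vD : v D ^ 2 = v 2 ^ 3 := by
    rw [← map_pow, L.derivWeierstrassP_sq _ (alpha_notMem h), h2, h3,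
      show 4 * X ^ 3 - 4 * X - 0 = -(8 * X) by linear_combination (4 * X) * hX,
      v.map_neg, map_mul, map_eight, vX, mul_one]
  have vI : v (2 + 2 * I) ^ 2 = v 2 ^ 3 := by
    rw [← map_pow, show (2 + 2 * I) ^ 2 = 8 * I by linear_combination 4 * Complex.I_sq, map_mul,
      map_eight, map_I, mul_one]
  have e := congrArg (fun z => v z ^ 2) heq
  simp only [map_mul, mul_pow, vX, vσ, vD, vI, map_sum_normChar_weight h2 h3 h h8 v hv,
    one_mul, mul_one, S] at e
  refine odd_of_map_eq_one hv ((pow_eq_one_iff_of_nonneg zero_le two_ne_zero).1 ?_)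
  refine mul_right_cancel₀ (b := v 2 ^ 2 * v 2 ^ 3)
    (mul_ne_zero (pow_ne_zero _ (map_two_pos v).ne') (pow_ne_zero _ (map_two_pos v).ne')) ?_
  rw [e, one_mul, mul_comm]

end FA.BirchTwists

end
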