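import Fermat.Agent.BirchTwists.Gauss
import Fermat.Agent.CM.CongruentCurves
import Fermat.Agent.HasseBound.Coeffs

/-!
# The L-series of `y² = x³ - p² x`, `p ≡ 3 (mod 8)`, over the square lattice

Its coefficients are `(n / p)` times those of `η(4z)² η(8z)²`, hence a sum over the Gaussian
integers `x = -p + (2 + 2 i) z`. Collecting by the residue of `z` modulo `p` gives a combination of
second differences at the quarter period, with coefficients the quadratic character of the norm.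
-/

set_option autoImplicit false

noncomputable section

open Complex (I)
open FA.CoatesWiles (kern diffSum kern_mul)
open FA.CM (gaussN cast_gaussN coeff32 finite_gaussN congruentCurve)
open scoped ComplexConjugate

set_option linter.unnecessarySeqFocus false

namespace FA.BirchTwists

variable (p : ℕ) [Fact p.Prime]

/-- The quadratic character of the norm. -/
def normChar (y : ZMod p × ZMod p) : ℂ :=
  ((quadraticChar (ZMod p) (y.1 ^ 2 + y.2 ^ 2) : ℤ) : ℂ)

theorem normChar_zero : normChar p 0 = 0 := by simp [normChar]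

theorem normChar_neg (y : ZMod p × ZMod p) : normChar p (-y) = normChar p y := by simp [normChar]

theorem normChar_rot (y : ZMod p × ZMod p) : normChar p (-y.2, y.1) = normChar p y := by
  simp [normChar, add_comm]

/-- It is orthogonal to the constants. -/
theorem sum_normChar (hp : p ≠ 2) : ∑ y : ZMod p × ZMod p, normChar p y = 0 := by
  obtain ⟨u, hu⟩ := quadraticChar_exists_neg_one (F := ZMod p) (by rwa [ZMod.ringChar_zmod_n])
  obtain ⟨a, b, hab⟩ := ZMod.sq_add_sq p u
  have hu0 : u ≠ 0 := fun e => by simp [e] at hu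
  let m : ZMod p × ZMod p → ZMod p × ZMod p := fun y => (a * y.1 - b * y.2, a * y.2 + b * y.1)
  have hm : Function.Injective m := fun x y e => by
    obtain ⟨e1, e2⟩ := Prod.ext_iff.1 e
    simp only [m] at e1 e2
    refine Prod.ext (mul_left_cancel₀ hu0 ?_) (mul_left_cancel₀ hu0 ?_)
    · rw [← hab]; linear_combination a * e1 + b * e2
    · rw [← hab]; linear_combination a * e2 - b * e1
  have e := Fintype.sum_bijective m (Finite.injective_iff_bijective.1 hm)
    (fun y => -normChar p y) (normChar p) (fun y => by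
      simp only [normChar, m]
      rw [show (a * y.1 - b * y.2) ^ 2 + (a * y.2 + b * y.1) ^ 2 = u * (y.1 ^ 2 + y.2 ^ 2) by
        rw [← hab]; ring, map_mul, hu]
      push_cast
      ring)
  rw [Finset.sum_neg_distrib] at e
  linear_combination (-1 / 2 : ℂ) * e

/-- `2 n + 1 + 2 m i`. -/
def oddPt (v : ℤ × ℤ) : ℂ := gi (2 * v.1 + 1, 2 * v.2)

theorem normSq_oddPt (v : ℤ × ℤ) : Complex.normSq (oddPt v) = (gaussN v : ℝ) := by
  have h : ((gaussN v : ℤ) : ℝ) = ((2 * v.1 + 1) ^ 2 + 4 * v.2 ^ 2 : ℤ) := by rw [cast_gaussN]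
  rw [Complex.normSq_apply, oddPt, gi_re, gi_im]
  push_cast at h ⊢
  linear_combination -h

theorem gaussN_ne_zero (v : ℤ × ℤ) : gaussN v ≠ 0 := fun e => by
  have h := cast_gaussN v
  rw [e, Nat.cast_zero] at h
  nlinarith [sq_nonneg v.2, mul_self_pos.2 (show 2 * v.1 + 1 ≠ 0 by omega)]

theorem kern_oddPt (s : ℂ) (v : ℤ × ℤ) :
    kern s (oddPt v) = conj (oddPt v) * (gaussN v : ℂ) ^ (-s) := by
  rw [kern, normSq_oddPt, Complex.cpow_def_of_ne_zero (Nat.cast_ne_zero.2 (gaussN_ne_zero v)),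
    Complex.natCast_log, mul_comm (-s)]

/-- The summand by lattice points. -/
def coeffTerm (s : ℂ) (v : ℤ × ℤ) : ℂ :=
  (jacobiSym (gaussN v) p : ℂ) * (((-1) ^ (v.1 + v.2).natAbs * v.1 : ℤ) : ℂ) *
    (gaussN v : ℂ) ^ (-s)

/-- The symmetrised summand. -/
def symTerm (s : ℂ) (v : ℤ × ℤ) : ℂ :=
  (jacobiSym (gaussN v) p : ℂ) * (-1 : ℂ) ^ (v.1 + v.2).natAbs * kern s (oddPt v)

omit [Fact p.Prime]

theorem norm_jacobiSym_le (a : ℤ) : ‖(jacobiSym a p : ℂ)‖ ≤ 1 := by
  rcases jacobiSym.trichotomy a p with e | e | e <;> simp [e]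

theorem norm_symTerm_le (s : ℂ) (v : ℤ × ℤ) : ‖symTerm p s v‖ ≤ ‖kern s (oddPt v)‖ := by
  rw [symTerm, norm_mul, norm_mul, norm_pow, norm_neg, norm_one, one_pow, mul_one]
  exact mul_le_of_le_one_left (norm_nonneg _) (norm_jacobiSym_le p _)

theorem norm_coeffTerm_le (s : ℂ) (v : ℤ × ℤ) : ‖coeffTerm p s v‖ ≤ ‖kern s (oddPt v)‖ := by
  rw [coeffTerm, kern_oddPt, norm_mul, norm_mul, norm_mul, RCLike.norm_conj]
  refine mul_le_mul_of_nonneg_right ((mul_le_of_le_one_left (norm_nonneg _)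
    (norm_jacobiSym_le p _)).trans ?_) (norm_nonneg _)
  refine le_trans ?_ (Complex.abs_re_le_norm _)
  rw [oddPt, gi_re]
  push_cast
  rw [norm_mul, norm_pow, norm_neg, norm_one, one_pow, one_mul, Complex.norm_intCast]
  rw [show ((2 : ℝ) * (v.1 : ℝ) + 1) = ((2 * v.1 + 1 : ℤ) : ℝ) by push_cast; rfl]
  exact_mod_cast (show |v.1| ≤ |2 * v.1 + 1| by
    rcases abs_cases v.1 with h | h <;> rcases abs_cases (2 * v.1 + 1) with h' | h' <;> omega)

/-- The reflections `x ↦ -x` and `x ↦ x̄`. -/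
def negPt : ℤ × ℤ ≃ ℤ × ℤ where
  toFun v := (-1 - v.1, -v.2)
  invFun v := (-1 - v.1, -v.2)
  left_inv v := by simp
  right_inv v := by simp

theorem gaussN_negPt (v : ℤ × ℤ) : gaussN (negPt v) = gaussN v := by
  simp only [gaussN, negPt, Equiv.coe_fn_mk]
  ring_nf

theorem oddPt_negPt (v : ℤ × ℤ) : oddPt (negPt v) = -oddPt v := by
  simp [oddPt, negPt, gi]
  ring

theorem neg_one_pow_negPt (v : ℤ × ℤ) :
    (-1 : ℂ) ^ ((negPt v).1 + (negPt v).2).natAbs = -(-1 : ℂ) ^ (v.1 + v.2).natAbs := by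
  rw [← FA.CM.neg_one_zpow_natAbs, ← FA.CM.neg_one_zpow_natAbs,
    show (negPt v).1 + (negPt v).2 = v.1 + v.2 + (2 * (-(v.1 + v.2) - 1) + 1) by
      simp [negPt]; ring,
    zpow_add₀ (by norm_num), (odd_two_mul_add_one _).neg_one_zpow, mul_neg_one]

theorem symTerm_negPt (s : ℂ) (v : ℤ × ℤ) : symTerm p s (negPt v) = symTerm p s v := by
  simp [symTerm, gaussN_negPt, oddPt_negPt, neg_one_pow_negPt, FA.CoatesWiles.kern_neg]

variable {p} (hp8 : p % 8 = 3)

/-- The even points. -/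
def evenPt (p : ℕ) (z : ℤ × ℤ) : ℤ × ℤ := (z.1 - z.2 - ((p + 1) / 2 : ℕ), z.1 + z.2)

include hp8

theorem evenPt_even (z : ℤ × ℤ) : Even ((evenPt p z).1 + (evenPt p z).2) := by
  refine ⟨z.1 - ((p + 1) / 4 : ℕ), ?_⟩
  simp only [evenPt]
  omega

theorem oddPt_evenPt (z : ℤ × ℤ) : oddPt (evenPt p z) = -(p : ℂ) + (2 + 2 * I) * gi z := by
  obtain ⟨k, hk, h⟩ : ∃ k : ℕ, (p + 1) / 2 = k ∧ 2 * k = p + 1 := ⟨_, rfl, by omega⟩
  have h' : 2 * (k : ℂ) = p + 1 := by exact_mod_cast h
  simp only [oddPt, evenPt, gi, hk]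
  push_cast
  linear_combination -h' - 2 * (z.2 : ℂ) * Complex.I_sq

/-- The two halves. -/
def halves : (ℤ × ℤ) ⊕ (ℤ × ℤ) ≃ ℤ × ℤ :=
  Equiv.ofBijective (Sum.elim (evenPt p) (negPt ∘ evenPt p)) <| by
    refine ⟨?_, fun v => ?_⟩
    · rintro (⟨a, b⟩ | ⟨a, b⟩) (⟨c, d⟩ | ⟨c, d⟩) e <;>
        simp only [Sum.elim_inl, Sum.elim_inr, Function.comp_apply, negPt, evenPt,
          Equiv.coe_fn_mk, Prod.mk.injEq] at e <;>
        simp only [reduceCtorEq, Sum.inl.injEq, Sum.inr.injEq, Prod.mk.injEq] <;> omega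
    · rcases Int.even_or_odd (v.1 + v.2) with ⟨r, hr⟩ | ⟨r, hr⟩
      · refine ⟨.inl (r + ((p + 1) / 4 : ℕ), v.2 - r - ((p + 1) / 4 : ℕ)), ?_⟩
        simp only [Sum.elim_inl, evenPt]
        ext <;> simp <;> omega
      · refine ⟨.inr (-1 - r + ((p + 1) / 4 : ℕ), -v.2 + 1 + r - ((p + 1) / 4 : ℕ)), ?_⟩
        simp only [Sum.elim_inr, Function.comp_apply, negPt, evenPt, Equiv.coe_fn_mk]
        ext <;> simp <;> omega

variable [Fact p.Prime]

/-- `(N / p)` on the points `-p + (2 + 2 i) z`. -/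
theorem symTerm_evenPt (s : ℂ) (z : ℤ × ℤ) :
    symTerm p s (evenPt p z) =
      -normChar p ((z.1 : ZMod p), (z.2 : ZMod p)) * kern s (-(p : ℂ) + (2 + 2 * I) * gi z) := by
  have hp2 : p ≠ 2 := by omega
  have h8 : quadraticChar (ZMod p) 8 = -1 := by
    have h2 := legendreSym.at_two (p := p) hp2
    rw [ZMod.χ₈_nat_eq_if_mod_eight, if_neg (by omega), if_neg (by omega)] at h2
    have hne : (2 : ZMod p) ≠ 0 := fun e => hp2 ((Nat.prime_dvd_prime_iff_eq Fact.out
      Nat.prime_two).1 ((ZMod.natCast_eq_zero_iff 2 p).1 (by exact_mod_cast e)))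
    rw [show (8 : ZMod p) = 2 ^ 2 * 2 by norm_num, map_mul, quadraticChar_sq_one' hne, one_mul]
    simpa [legendreSym] using h2
  have hz : ((gaussN (evenPt p z) : ℤ) : ZMod p) =
      8 * ((z.1 : ZMod p) ^ 2 + (z.2 : ZMod p) ^ 2) := by
    have h : 2 * (((p + 1) / 2 : ℕ) : ℤ) = p + 1 := by omega
    have e : (gaussN (evenPt p z) : ℤ) =
        8 * (z.1 ^ 2 + z.2 ^ 2) + (p : ℤ) * (p - 4 * (z.1 - z.2)) := by
      rw [cast_gaussN]
      simp only [evenPt]
      rw [show 2 * (z.1 - z.2 - (((p + 1) / 2 : ℕ) : ℤ)) + 1 = 2 * (z.1 - z.2) - p by linarith]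
      ring
    rw [e]
    push_cast
    rw [ZMod.natCast_self]
    ring
  rw [symTerm, oddPt_evenPt hp8, (Int.natAbs_even.2 (evenPt_even hp8 z)).neg_one_pow, mul_one,
    ← jacobiSym.legendreSym.to_jacobiSym, legendreSym, hz, map_mul, h8, normChar]
  push_cast
  ring

variable {L : PeriodPair} {Ω : ℂ}

omit hp8 [Fact p.Prime] in
/-- A sum weighted by a function of the residue. -/
theorem tsum_residues (h : IsSquareLattice L Ω) (n : ℕ) [NeZero n] {s : ℂ} (hs : 3 / 2 < s.re)
    (f : ZMod n × ZMod n → ℂ) {c : ℂ} (hc : c ≠ 0) (x : ℂ) :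
    ∑' v : ℤ × ℤ, f ((v.1 : ZMod n), (v.2 : ZMod n)) * kern s (c * (x + Ω * gi v / n)) =
      kern s c * ∑ y : ZMod n × ZMod n, f y * latSum L (x + tors Ω y) s := by
  have hn : (n : ℂ) ≠ 0 := NeZero.ne _
  have key : ∀ q : (ZMod n × ZMod n) × (ℤ × ℤ),
      f (((splitEquiv n q).1 : ZMod n), ((splitEquiv n q).2 : ZMod n)) *
          kern s (c * (x + Ω * gi (splitEquiv n q) / n)) =
        kern s c * (f q.1 * kern s (x + tors Ω q.1 + Ω * gi q.2)) := fun q => by
    have e : (((splitEquiv n q).1 : ZMod n), ((splitEquiv n q).2 : ZMod n)) = q.1 :=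
      congrArg Prod.fst ((splitEquiv n).symm_apply_apply q)
    rw [e, kern_mul s hc, splitEquiv_apply, tors,
      show x + Ω * (gi (lift' q.1) + n * gi q.2) / n =
        x + Ω * gi (lift' q.1) / n + Ω * gi q.2 by field_simp; ring]
    ring
  have hy : ∀ y : ZMod n × ZMod n,
      Summable fun w : ℤ × ℤ => f y * kern s (x + tors Ω y + Ω * gi w) := fun y =>
    (((latEquiv h).summable_iff.2 (summable_kern L hs (x + tors Ω y))).mul_left (f y))
  have hsum : Summable fun q : (ZMod n × ZMod n) × (ℤ × ℤ) =>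
      f q.1 * kern s (x + tors Ω q.1 + Ω * gi q.2) :=
    .of_norm ((summable_prod_of_nonneg fun _ => norm_nonneg _).2
      ⟨fun y => (hy y).norm, Summable.of_finite⟩)
  rw [← (splitEquiv n).tsum_eq, tsum_congr key, tsum_mul_left, hsum.tsum_prod, tsum_fintype]
  congr 1
  refine Finset.sum_congr rfl fun y _ => ?_
  rw [latSum_eq_tsum h]
  exact tsum_mul_left (a := f y) (f := fun w : ℤ × ℤ => kern s (x + tors Ω y + Ω * gi w))

/-- The L-series, sum over `-p + (2 + 2 i) ℤ[i]`. -/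
theorem LSeries_eq_tsum (h : IsSquareLattice L Ω) {s : ℂ} (hs : 3 / 2 < s.re) :
    (congruentCurve p).LSeries s = ∑' z : ℤ × ℤ,
      -normChar p ((z.1 : ZMod p), (z.2 : ZMod p)) * kern s (-(p : ℂ) + (2 + 2 * I) * gi z) := by
  have hc : (2 : ℂ) / Ω ≠ 0 := div_ne_zero two_ne_zero h.1
  have hk : Summable fun v : ℤ × ℤ => ‖kern s (oddPt v)‖ := by
    refine ((((latEquiv h).summable_iff.2 (summable_kern L hs (Ω / 2))).mul_left
      (kern s (2 / Ω))).norm).congr fun v => ?_
    rw [Function.comp_apply, coe_latEquiv, ← kern_mul s hc]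
    congr 2
    simp [oddPt, gi]
    field_simp [h.1]
    ring
  have hA : Summable (coeffTerm p s) := .of_norm_bounded hk (norm_coeffTerm_le p s)
  have hB : Summable (symTerm p s) := .of_norm_bounded hk (norm_symTerm_le p s)
  let σ : ℤ × ℤ ≃ ℤ × ℤ := (Equiv.refl ℤ).prodCongr (Equiv.neg ℤ)
  have hB2 : ∀ v, symTerm p s v + symTerm p s (σ v) =
      2 * (coeffTerm p s v + coeffTerm p s (negPt v)) := fun v => by
    have e1 : gaussN (σ v) = gaussN v := by simp [σ, gaussN]
    have e2 : oddPt (σ v) = conj (oddPt v) := by simp [σ, oddPt, gi, Complex.conj_ofNat]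
    have e3 : (-1 : ℂ) ^ ((σ v).1 + (σ v).2).natAbs = (-1 : ℂ) ^ (v.1 + v.2).natAbs := by
      rw [← FA.CM.neg_one_zpow_natAbs, ← FA.CM.neg_one_zpow_natAbs,
        show (σ v).1 + (σ v).2 = v.1 + v.2 + 2 * (-v.2) by simp [σ]; ring,
        zpow_add₀ (by norm_num), (even_two_mul _).neg_one_zpow, mul_one]
    simp only [symTerm, coeffTerm, kern_oddPt]
    simp only [gaussN_negPt, e1, e2, e3, Int.cast_mul,
      Int.cast_pow, Int.cast_neg, Int.cast_one, neg_one_pow_negPt, Complex.conj_conj]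
    simp [oddPt, gi, negPt, Complex.conj_ofNat]
    ring
  have hsum : ∑' v, symTerm p s v = 2 * ∑' v, coeffTerm p s v := by
    have e : ∑' v, (symTerm p s v + symTerm p s (σ v)) =
        ∑' v, 2 * (coeffTerm p s v + coeffTerm p s (negPt v)) := tsum_congr hB2
    rw [hB.tsum_add (g := fun v => symTerm p s (σ v)) (σ.summable_iff.2 hB), σ.tsum_eq,
      tsum_mul_left, hA.tsum_add (g := fun v => coeffTerm p s (negPt v)) (negPt.summable_iff.2 hA),
      negPt.tsum_eq] at e
    linear_combination e / 2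
  have hhalf : ∑' v, symTerm p s v = 2 * ∑' z, symTerm p s (evenPt p z) := by
    rw [← (halves hp8).tsum_eq, Summable.tsum_sum]
    · rw [two_mul]
      exact congrArg₂ (· + ·) rfl (tsum_congr fun z => symTerm_negPt p s _)
    · exact ((halves hp8).summable_iff.2 hB).comp_injective Sum.inl_injective
    · exact ((halves hp8).summable_iff.2 hB).comp_injective Sum.inr_injective
  rw [tsum_congr fun z => (symTerm_evenPt hp8 s z).symm,
    mul_left_cancel₀ two_ne_zero (hhalf.symm.trans hsum)]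
  have hfib : HasSum (fun N : ℕ => ((congruentCurve p).LFunction N : ℂ) * (N : ℂ) ^ (-s))
      (∑' v, coeffTerm p s v) := by
    refine ((Equiv.sigmaFiberEquiv gaussN).hasSum_iff.mpr hA.hasSum).sigma fun N => ?_
    have : Fintype {v // gaussN v = N} := (finite_gaussN N).fintype
    convert hasSum_fintype (fun v : {v // gaussN v = N} => coeffTerm p s v.1) using 1
    · rfl
    have hp2 : p ≠ 2 := by omega
    have hD : Squarefree (-(p : ℤ)) :=
      (Nat.prime_iff_prime_int.1 Fact.out).neg.squarefree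
    rw [FA.CM.LFunction_congruentCurve (n := (p : ℚ)) (t := 1) (D := -(p : ℤ)) hD one_ne_zero
      (by push_cast; ring) (fun k => (jacobiSym k p : ℂ)) (by simp)
      (fun a b => by rw [Nat.cast_mul, jacobiSym.mul_left, Int.cast_mul])
      (fun l hl hl2 => by
        rw [FA.CM.jacobiSym_natAbs_reciprocity (by omega) (hl.odd_of_ne_two hl2),
          Int.natAbs_neg, Int.natAbs_natCast]),
      FA.CM.qCoeff_form32, coeff32, Int.cast_sum, Finset.mul_sum, Finset.sum_mul]
    refine (Finset.sum_congr rfl fun v hv => ?_).trans (Finset.sum_subtype (F := this)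
      (finite_gaussN N).toFinset (fun v => Set.Finite.mem_toFinset _) (coeffTerm p s))
    rw [coeffTerm, (Set.Finite.mem_toFinset _).mp hv]
  rw [WeierstrassCurve.LSeries, LSeries, ← hfib.tsum_eq]
  exact tsum_congr fun N => LSeries.term_def₀ (by simp) s N

/-- **The L-series by residues.** -/
theorem LSeries_eq_sum (h : IsSquareLattice L Ω) {s : ℂ} (hs : 3 / 2 < s.re) :
    (congruentCurve p).LSeries s = -kern s ((2 + 2 * I) * p / Ω) / 2 *
      ∑ y : ZMod p × ZMod p, normChar p y * diffSum L (alpha Ω) (tors Ω y) s := by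
  have hp0 : (p : ℂ) ≠ 0 := NeZero.ne _
  have hI : (2 + 2 * I : ℂ) ≠ 0 := fun e => by
    have := congrArg Complex.re e
    simp at this
  have hc : (2 + 2 * I) * p / Ω ≠ 0 := div_ne_zero (mul_ne_zero hI hp0) h.1
  have hL : (congruentCurve p).LSeries s = -kern s ((2 + 2 * I) * p / Ω) *
      ∑ y : ZMod p × ZMod p, normChar p y * latSum L (alpha Ω + tors Ω y) s := by
    rw [LSeries_eq_tsum hp8 h hs, neg_mul (kern s _),
      ← tsum_residues h p hs (normChar p) hc (alpha Ω), ← tsum_neg]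
    refine tsum_congr fun v => ?_
    rw [neg_mul]
    congr 3
    simp only [alpha, gi]
    field_simp [h.1]
    push_cast
    linear_combination -2 * (p : ℂ) * Complex.I_sq
  have hneg : ∑ y : ZMod p × ZMod p, normChar p y * latSum L (alpha Ω - tors Ω y) s =
      ∑ y : ZMod p × ZMod p, normChar p y * latSum L (alpha Ω + tors Ω y) s := by
    rw [← Equiv.sum_comp (Equiv.neg (ZMod p × ZMod p))]
    refine Finset.sum_congr rfl fun y _ => ?_
    rw [Equiv.neg_apply, normChar_neg,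
      ← latSum_add L (alpha Ω + tors Ω y) s (tors_neg_mem h y)]
    congr 2
    ring
  rw [hL]
  simp only [diffSum_eq L hs, mul_sub, mul_add, Finset.sum_sub_distrib, Finset.sum_add_distrib]
  rw [hneg, ← Finset.sum_mul, sum_normChar p (by omega)]
  ring

end FA.BirchTwists

end
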